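import Mathlib

/-!
# K-machine (row 37 / S59), piece K2: the local lifting rings at the trivial primes — definitions

`ι` is the (finite) set of trivial primes (`r ≡ 1 mod p`, `ρ̄(Frob_r) = ±1`), `τ` indexes the free
variables `x_1, …, x_g`.  Everything lives in ONE power series ring
`P = O[[a_i, b_i, c_i, X_i, Y_i, Z_i (i ∈ ι), x_t (t ∈ τ)]]`:

* the inertia generator is `Σ_i = t_i + (a_i b_i; c_i −a_i)`
  (type `χ`: `a_i² + b_i c_i = δ_i²` with `δ_i = (ζ_i − ζ_i⁻¹)/2`; type `1`: `Σ_i = 1 + N_i`,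
  `a_i² + b_i c_i = 0`);
* the Frobenius is the Cayley transform `Φ_i = s_i·((1 + ν_i) + 2 Ψ_i)/(1 − ν_i)`,
  `Ψ_i = (X_i Y_i; Z_i −X_i)`, `ν_i = X_i² + Y_i Z_i` (so `det Φ_i = s_i²`, no square root).

`rtk2Ichi δ` is the ideal of the type-`χ` relations (`Σ₀² = δ²`, `[Ψ, Σ₀] = 0`), `rtk2Ione q` the
ideal of the unipotent relations (`N² = 0`, `Φ' N = q N Φ'` for `Φ' = (1 + ν) + 2Ψ`).
-/

set_option autoImplicit false

namespace Fermat.Agent.RT.K2

open MvPowerSeries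

/-- The index type of the variables: six for every trivial prime, and the free ones. -/
abbrev Rtk2Var (ι τ : Type*) := (ι × Fin 6) ⊕ τ

/-- The ambient power series ring. -/
abbrev Rtk2P (O : Type*) [CommRing O] (ι τ : Type*) := MvPowerSeries (Rtk2Var ι τ) O

section

variable {O : Type*} [CommRing O] {ι τ : Type*}

/-- The index of the `k`-th variable of the prime `i`. -/
def rtk2ix (i : ι) (k : Fin 6) : Rtk2Var ι τ := Sum.inl (i, k)

/-- The index of the free variable `t`. -/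
def rtk2jx (t : τ) : Rtk2Var ι τ := Sum.inr t

theorem rtk2ix_injective : Function.Injective (fun p : ι × Fin 6 => (rtk2ix p.1 p.2 : Rtk2Var ι τ)) :=
  fun _ _ h => Sum.inl_injective h

/-- `a_i` (upper left entry of `Σ₀`). -/
noncomputable def rtk2a (i : ι) : Rtk2P O ι τ := X (rtk2ix i 0)
/-- `b_i` (upper right entry of `Σ₀`). -/
noncomputable def rtk2b (i : ι) : Rtk2P O ι τ := X (rtk2ix i 1)
/-- `c_i` (lower left entry of `Σ₀`). -/
noncomputable def rtk2c (i : ι) : Rtk2P O ι τ := X (rtk2ix i 2)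
/-- `X_i` (upper left entry of `Ψ`). -/
noncomputable def rtk2X (i : ι) : Rtk2P O ι τ := X (rtk2ix i 3)
/-- `Y_i` (upper right entry of `Ψ`). -/
noncomputable def rtk2Y (i : ι) : Rtk2P O ι τ := X (rtk2ix i 4)
/-- `Z_i` (lower left entry of `Ψ`). -/
noncomputable def rtk2Z (i : ι) : Rtk2P O ι τ := X (rtk2ix i 5)

/-- `f_i = a_i² + b_i c_i − δ_i²`. -/
noncomputable def rtk2f (δ : ι → O) (i : ι) : Rtk2P O ι τ :=
  rtk2a i ^ 2 + rtk2b i * rtk2c i - C (δ i ^ 2)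

/-- `g_i = a_i² + b_i c_i`. -/
noncomputable def rtk2g (i : ι) : Rtk2P O ι τ := rtk2a i ^ 2 + rtk2b i * rtk2c i

/-- first minor `b X − a Y`. -/
noncomputable def rtk2m1 (i : ι) : Rtk2P O ι τ := rtk2b i * rtk2X i - rtk2a i * rtk2Y i
/-- second minor `c X − a Z`. -/
noncomputable def rtk2m2 (i : ι) : Rtk2P O ι τ := rtk2c i * rtk2X i - rtk2a i * rtk2Z i
/-- third minor `c Y − b Z`. -/
noncomputable def rtk2m3 (i : ι) : Rtk2P O ι τ := rtk2c i * rtk2Y i - rtk2b i * rtk2Z i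

/-- `ν_i = X_i² + Y_i Z_i = −det Ψ_i`. -/
noncomputable def rtk2nu (i : ι) : Rtk2P O ι τ := rtk2X i ^ 2 + rtk2Y i * rtk2Z i

/-- Entries of the Cayley numerator `Φ' = (1 + ν) + 2Ψ = (A B; C D)`. -/
noncomputable def rtk2A (i : ι) : Rtk2P O ι τ := 1 + rtk2nu i + 2 * rtk2X i
/-- Entry `B` of the Cayley numerator. -/
noncomputable def rtk2B (i : ι) : Rtk2P O ι τ := 2 * rtk2Y i
/-- Entry `C` of the Cayley numerator. -/
noncomputable def rtk2C (i : ι) : Rtk2P O ι τ := 2 * rtk2Z i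
/-- Entry `D` of the Cayley numerator. -/
noncomputable def rtk2D (i : ι) : Rtk2P O ι τ := 1 + rtk2nu i - 2 * rtk2X i

/-- Entry `(1,1)` of `Φ' N − q N Φ'`, `N = (a b; c −a)`. -/
noncomputable def rtk2E11 (q : ι → O) (i : ι) : Rtk2P O ι τ :=
  (1 - C (q i)) * rtk2A i * rtk2a i - C (q i) * rtk2C i * rtk2b i + rtk2B i * rtk2c i
/-- Entry `(1,2)` of `Φ' N − q N Φ'`. -/
noncomputable def rtk2E12 (q : ι → O) (i : ι) : Rtk2P O ι τ :=
  -((1 + C (q i)) * rtk2B i * rtk2a i) + (rtk2A i - C (q i) * rtk2D i) * rtk2b i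
/-- Entry `(2,1)` of `Φ' N − q N Φ'`. -/
noncomputable def rtk2E21 (q : ι → O) (i : ι) : Rtk2P O ι τ :=
  (1 + C (q i)) * rtk2C i * rtk2a i + (rtk2D i - C (q i) * rtk2A i) * rtk2c i
/-- Entry `(2,2)` of `Φ' N − q N Φ'`. -/
noncomputable def rtk2E22 (q : ι → O) (i : ι) : Rtk2P O ι τ :=
  -((1 - C (q i)) * rtk2D i * rtk2a i) + rtk2C i * rtk2b i - C (q i) * rtk2B i * rtk2c i

/-- The generators of the type-`χ` ideal. -/
noncomputable def rtk2genChi (δ : ι → O) (p : ι × Fin 4) : Rtk2P O ι τ :=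
  ![rtk2f δ p.1, rtk2m1 p.1, rtk2m2 p.1, rtk2m3 p.1] p.2

/-- The generators of the unipotent ideal. -/
noncomputable def rtk2genOne (q : ι → O) (p : ι × Fin 5) : Rtk2P O ι τ :=
  ![rtk2g p.1, rtk2E11 q p.1, rtk2E12 q p.1, rtk2E21 q p.1, rtk2E22 q p.1] p.2

/-- The generators `a_i, b_i, c_i` of the unramified ideal. -/
noncomputable def rtk2genUr (p : ι × Fin 3) : Rtk2P O ι τ :=
  ![rtk2a p.1, rtk2b p.1, rtk2c p.1] p.2

variable (τ) in
/-- The ideal of the type-`χ` relations. -/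
noncomputable def rtk2Ichi (δ : ι → O) : Ideal (Rtk2P O ι τ) :=
  Ideal.span (Set.range (rtk2genChi δ))

variable (τ) in
/-- The ideal of the unipotent relations. -/
noncomputable def rtk2Ione (q : ι → O) : Ideal (Rtk2P O ι τ) :=
  Ideal.span (Set.range (rtk2genOne q))

variable (O ι τ) in
/-- The ideal `(a_i, b_i, c_i : i)` cutting out the unramified locus `N = 0`. -/
noncomputable def rtk2Iur : Ideal (Rtk2P O ι τ) :=
  Ideal.span (Set.range rtk2genUr)

variable (ι τ) in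
/-- The prime `𝔮_ur = (λ, a_i, b_i, c_i : i)`: the unramified locus of the special fibre. -/
noncomputable def rtk2Qur (lam : O) : Ideal (Rtk2P O ι τ) :=
  Ideal.span {C lam} ⊔ rtk2Iur O ι τ

/-- The Cramer element `D_i = A_i·((1 + q)²(1 − ν_i)² − 4 q (1 + ν_i)²)`. -/
noncomputable def rtk2Cramer (q : ι → O) (i : ι) : Rtk2P O ι τ :=
  rtk2A i * ((1 + C (q i)) ^ 2 * (1 - rtk2nu i) ^ 2 - 4 * C (q i) * (1 + rtk2nu i) ^ 2)

variable (τ) in
/-- The type-`χ` local ring `R^χ_∞`. -/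
abbrev Rtk2Rchi (δ : ι → O) := Rtk2P O ι τ ⧸ rtk2Ichi τ δ

variable (τ) in
/-- The unipotent local ring `R¹_∞`. -/
abbrev Rtk2Rone (q : ι → O) := Rtk2P O ι τ ⧸ rtk2Ione τ q

end

end Fermat.Agent.RT.K2
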