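import Fermat.Agent.RT.K2.Defs

/-!
# RT-K2: the Cramer identity and the equality of the special fibres

* `rtk2_cramer_a/b/c` : `(1 − q_i)·D_i·a_i ∈ I_1` (and the same for `b_i`, `c_i`);
* `rtk2_Ione_sup_eq` : `I_1 + (λ) = I_χ + (λ)` when `q_i ≡ 1`, `δ_i ≡ 0 mod λ` and `2` is a unit.
-/

set_option autoImplicit false

namespace Fermat.Agent.RT.K2

open MvPowerSeries

variable {O : Type*} [CommRing O] {ι τ : Type*}

theorem rtk2_g_mem_Ione (q : ι → O) (i : ι) : (rtk2g i : Rtk2P O ι τ) ∈ rtk2Ione τ q :=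
  Ideal.subset_span ⟨(i, 0), rfl⟩

theorem rtk2_E11_mem_Ione (q : ι → O) (i : ι) : (rtk2E11 q i : Rtk2P O ι τ) ∈ rtk2Ione τ q :=
  Ideal.subset_span ⟨(i, 1), rfl⟩

theorem rtk2_E12_mem_Ione (q : ι → O) (i : ι) : (rtk2E12 q i : Rtk2P O ι τ) ∈ rtk2Ione τ q :=
  Ideal.subset_span ⟨(i, 2), rfl⟩

theorem rtk2_E21_mem_Ione (q : ι → O) (i : ι) : (rtk2E21 q i : Rtk2P O ι τ) ∈ rtk2Ione τ q :=
  Ideal.subset_span ⟨(i, 3), rfl⟩

theorem rtk2_E22_mem_Ione (q : ι → O) (i : ι) : (rtk2E22 q i : Rtk2P O ι τ) ∈ rtk2Ione τ q :=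
  Ideal.subset_span ⟨(i, 4), rfl⟩

theorem rtk2_f_mem_Ichi (δ : ι → O) (i : ι) : (rtk2f δ i : Rtk2P O ι τ) ∈ rtk2Ichi τ δ :=
  Ideal.subset_span ⟨(i, 0), rfl⟩

theorem rtk2_m1_mem_Ichi (δ : ι → O) (i : ι) : (rtk2m1 i : Rtk2P O ι τ) ∈ rtk2Ichi τ δ :=
  Ideal.subset_span ⟨(i, 1), rfl⟩

theorem rtk2_m2_mem_Ichi (δ : ι → O) (i : ι) : (rtk2m2 i : Rtk2P O ι τ) ∈ rtk2Ichi τ δ :=
  Ideal.subset_span ⟨(i, 2), rfl⟩

theorem rtk2_m3_mem_Ichi (δ : ι → O) (i : ι) : (rtk2m3 i : Rtk2P O ι τ) ∈ rtk2Ichi τ δ :=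
  Ideal.subset_span ⟨(i, 3), rfl⟩

theorem rtk2_a_mem_Iur (i : ι) : (rtk2a i : Rtk2P O ι τ) ∈ rtk2Iur O ι τ :=
  Ideal.subset_span ⟨(i, 0), rfl⟩

theorem rtk2_b_mem_Iur (i : ι) : (rtk2b i : Rtk2P O ι τ) ∈ rtk2Iur O ι τ :=
  Ideal.subset_span ⟨(i, 1), rfl⟩

theorem rtk2_c_mem_Iur (i : ι) : (rtk2c i : Rtk2P O ι τ) ∈ rtk2Iur O ι τ :=
  Ideal.subset_span ⟨(i, 2), rfl⟩

/-- A membership criterion: to show `span (range gen) ≤ J` check the generators. -/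
theorem rtk2_Ichi_le {δ : ι → O} {J : Ideal (Rtk2P O ι τ)}
    (h : ∀ i, rtk2f δ i ∈ J ∧ rtk2m1 i ∈ J ∧ rtk2m2 i ∈ J ∧ rtk2m3 i ∈ J) :
    rtk2Ichi τ δ ≤ J := by
  refine Ideal.span_le.mpr ?_
  rintro _ ⟨⟨i, k⟩, rfl⟩
  obtain ⟨h0, h1, h2, h3⟩ := h i
  fin_cases k
  · exact h0
  · exact h1
  · exact h2
  · exact h3

theorem rtk2_Ione_le {q : ι → O} {J : Ideal (Rtk2P O ι τ)}
    (h : ∀ i, rtk2g i ∈ J ∧ rtk2E11 q i ∈ J ∧ rtk2E12 q i ∈ J ∧ rtk2E21 q i ∈ J ∧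
      rtk2E22 q i ∈ J) :
    rtk2Ione τ q ≤ J := by
  refine Ideal.span_le.mpr ?_
  rintro _ ⟨⟨i, k⟩, rfl⟩
  obtain ⟨h0, h1, h2, h3, h4⟩ := h i
  fin_cases k
  · exact h0
  · exact h1
  · exact h2
  · exact h3
  · exact h4

theorem rtk2_Iur_le {J : Ideal (Rtk2P O ι τ)}
    (h : ∀ i, (rtk2a i : Rtk2P O ι τ) ∈ J ∧ rtk2b i ∈ J ∧ rtk2c i ∈ J) :
    rtk2Iur O ι τ ≤ J := by
  refine Ideal.span_le.mpr ?_
  rintro _ ⟨⟨i, k⟩, rfl⟩
  obtain ⟨h0, h1, h2⟩ := h i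
  fin_cases k
  · exact h0
  · exact h1
  · exact h2

/-- The unipotent relations lie in the unramified ideal `(a_i, b_i, c_i)`. -/
theorem rtk2_Ione_le_Iur (q : ι → O) : rtk2Ione τ q ≤ rtk2Iur O ι τ := by
  refine rtk2_Ione_le fun i => ⟨?_, ?_, ?_, ?_, ?_⟩
  · have : (rtk2g i : Rtk2P O ι τ) = rtk2a i * rtk2a i + rtk2c i * rtk2b i := by
      unfold rtk2g; ring
    rw [this]
    exact Ideal.add_mem _ (Ideal.mul_mem_left _ _ (rtk2_a_mem_Iur i))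
      (Ideal.mul_mem_left _ _ (rtk2_b_mem_Iur i))
  · unfold rtk2E11
    exact Ideal.add_mem _ (Ideal.sub_mem _ (Ideal.mul_mem_left _ _ (rtk2_a_mem_Iur i))
      (Ideal.mul_mem_left _ _ (rtk2_b_mem_Iur i))) (Ideal.mul_mem_left _ _ (rtk2_c_mem_Iur i))
  · unfold rtk2E12
    exact Ideal.add_mem _ (neg_mem (Ideal.mul_mem_left _ _ (rtk2_a_mem_Iur i)))
      (Ideal.mul_mem_left _ _ (rtk2_b_mem_Iur i))
  · unfold rtk2E21
    exact Ideal.add_mem _ (Ideal.mul_mem_left _ _ (rtk2_a_mem_Iur i))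
      (Ideal.mul_mem_left _ _ (rtk2_c_mem_Iur i))
  · unfold rtk2E22
    exact Ideal.sub_mem _ (Ideal.add_mem _ (neg_mem (Ideal.mul_mem_left _ _
      (rtk2_a_mem_Iur i))) (Ideal.mul_mem_left _ _ (rtk2_b_mem_Iur i)))
      (Ideal.mul_mem_left _ _ (rtk2_c_mem_Iur i))

/-- **Cramer identity**, first row. -/
theorem rtk2_cramer_a (q : ι → O) (i : ι) :
    (1 - C (q i)) * rtk2Cramer q i * rtk2a i ∈ rtk2Ione τ q := by
  have key : (1 - C (q i)) * rtk2Cramer q i * (rtk2a i : Rtk2P O ι τ) =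
      ((rtk2A i - C (q i) * rtk2D i) * (rtk2D i - C (q i) * rtk2A i)) * rtk2E11 q i +
      (C (q i) * rtk2C i * (rtk2D i - C (q i) * rtk2A i)) * rtk2E12 q i +
      (-(rtk2B i * (rtk2A i - C (q i) * rtk2D i))) * rtk2E21 q i := by
    unfold rtk2Cramer rtk2E11 rtk2E12 rtk2E21 rtk2A rtk2B rtk2C rtk2D rtk2nu
    ring
  rw [key]
  exact Ideal.add_mem _ (Ideal.add_mem _ (Ideal.mul_mem_left _ _ (rtk2_E11_mem_Ione q i))
    (Ideal.mul_mem_left _ _ (rtk2_E12_mem_Ione q i)))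
    (Ideal.mul_mem_left _ _ (rtk2_E21_mem_Ione q i))

/-- **Cramer identity**, second row. -/
theorem rtk2_cramer_b (q : ι → O) (i : ι) :
    (1 - C (q i)) * rtk2Cramer q i * rtk2b i ∈ rtk2Ione τ q := by
  have key : (1 - C (q i)) * rtk2Cramer q i * (rtk2b i : Rtk2P O ι τ) =
      ((1 + C (q i)) * rtk2B i * (rtk2D i - C (q i) * rtk2A i)) * rtk2E11 q i +
      ((1 - C (q i)) * rtk2A i * (rtk2D i - C (q i) * rtk2A i) -
        (1 + C (q i)) * rtk2B i * rtk2C i) * rtk2E12 q i +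
      (-((1 + C (q i)) * rtk2B i ^ 2)) * rtk2E21 q i := by
    unfold rtk2Cramer rtk2E11 rtk2E12 rtk2E21 rtk2A rtk2B rtk2C rtk2D rtk2nu
    ring
  rw [key]
  exact Ideal.add_mem _ (Ideal.add_mem _ (Ideal.mul_mem_left _ _ (rtk2_E11_mem_Ione q i))
    (Ideal.mul_mem_left _ _ (rtk2_E12_mem_Ione q i)))
    (Ideal.mul_mem_left _ _ (rtk2_E21_mem_Ione q i))

/-- **Cramer identity**, third row. -/
theorem rtk2_cramer_c (q : ι → O) (i : ι) :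
    (1 - C (q i)) * rtk2Cramer q i * rtk2c i ∈ rtk2Ione τ q := by
  have key : (1 - C (q i)) * rtk2Cramer q i * (rtk2c i : Rtk2P O ι τ) =
      (-((1 + C (q i)) * rtk2C i * (rtk2A i - C (q i) * rtk2D i))) * rtk2E11 q i +
      (-(C (q i) * (1 + C (q i)) * rtk2C i ^ 2)) * rtk2E12 q i +
      ((1 - C (q i)) * rtk2A i * (rtk2A i - C (q i) * rtk2D i) -
        C (q i) * (1 + C (q i)) * rtk2B i * rtk2C i) * rtk2E21 q i := by
    unfold rtk2Cramer rtk2E11 rtk2E12 rtk2E21 rtk2A rtk2B rtk2C rtk2D rtk2nu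
    ring
  rw [key]
  exact Ideal.add_mem _ (Ideal.add_mem _ (Ideal.mul_mem_left _ _ (rtk2_E11_mem_Ione q i))
    (Ideal.mul_mem_left _ _ (rtk2_E12_mem_Ione q i)))
    (Ideal.mul_mem_left _ _ (rtk2_E21_mem_Ione q i))

/-- **Cramer**, in the form consumed by `rtk4_unique_minimal`: the element `(1 − q_i)·D_i` kills
the image of the unramified generators of the prime `i` in `R¹ = P/I_1`. -/
theorem rtk2_cramer (q : ι → O) (i : ι) (k : Fin 3) :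
    (1 - C (q i)) * rtk2Cramer q i * rtk2genUr (i, k) ∈ rtk2Ione τ q := by
  fin_cases k
  · exact rtk2_cramer_a q i
  · exact rtk2_cramer_b q i
  · exact rtk2_cramer_c q i

section SpecialFibre

variable (lam : O) {q δ : ι → O}

private theorem rtk2_lam_mem (J : Ideal (Rtk2P O ι τ)) (x : Rtk2P O ι τ) :
    C lam * x ∈ J ⊔ Ideal.span {(C lam : Rtk2P O ι τ)} :=
  Ideal.mem_sup_right (Ideal.mul_mem_right _ _ (Ideal.mem_span_singleton_self _))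

/-- `I_1 + (λ) ≤ I_χ + (λ)`. -/
theorem rtk2_Ione_le_Ichi_sup (hq : ∀ i, ∃ r, q i = 1 + lam * r) (hδ : ∀ i, ∃ r, δ i = lam * r) :
    rtk2Ione τ q ≤ rtk2Ichi τ δ ⊔ Ideal.span {(C lam : Rtk2P O ι τ)} := by
  refine rtk2_Ione_le fun i => ?_
  obtain ⟨r, hr⟩ := hq i
  obtain ⟨s, hs⟩ := hδ i
  have hCq : (C (q i) : Rtk2P O ι τ) = 1 + C lam * C r := by rw [hr]; simp
  have hCδ : (C (δ i ^ 2) : Rtk2P O ι τ) = C lam * (C lam * C s ^ 2) := by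
    rw [hs]; simp; ring
  refine ⟨?_, ?_, ?_, ?_, ?_⟩
  · have : (rtk2g i : Rtk2P O ι τ) = rtk2f δ i + C lam * (C lam * C s ^ 2) := by
      simp only [rtk2g, rtk2f]; rw [hCδ]; ring
    rw [this]
    exact Ideal.add_mem _ (Ideal.mem_sup_left (rtk2_f_mem_Ichi δ i)) (rtk2_lam_mem lam _ _)
  · have : (rtk2E11 q i : Rtk2P O ι τ) = 2 * rtk2m3 i +
        C lam * (-(C r * rtk2A i * rtk2a i) - C r * rtk2C i * rtk2b i) := by
      simp only [rtk2E11, rtk2m3, rtk2A, rtk2B, rtk2C, rtk2nu]; rw [hCq]; ring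
    rw [this]
    exact Ideal.add_mem _ (Ideal.mem_sup_left (Ideal.mul_mem_left _ _ (rtk2_m3_mem_Ichi δ i)))
      (rtk2_lam_mem lam _ _)
  · have : (rtk2E12 q i : Rtk2P O ι τ) = 4 * rtk2m1 i +
        C lam * (-(C r * rtk2B i * rtk2a i) - C r * rtk2D i * rtk2b i) := by
      simp only [rtk2E12, rtk2m1, rtk2A, rtk2B, rtk2D, rtk2nu]; rw [hCq]; ring
    rw [this]
    exact Ideal.add_mem _ (Ideal.mem_sup_left (Ideal.mul_mem_left _ _ (rtk2_m1_mem_Ichi δ i)))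
      (rtk2_lam_mem lam _ _)
  · have : (rtk2E21 q i : Rtk2P O ι τ) = (-4) * rtk2m2 i +
        C lam * (C r * rtk2C i * rtk2a i - C r * rtk2A i * rtk2c i) := by
      simp only [rtk2E21, rtk2m2, rtk2A, rtk2C, rtk2D, rtk2nu]; rw [hCq]; ring
    rw [this]
    exact Ideal.add_mem _ (Ideal.mem_sup_left (Ideal.mul_mem_left _ _ (rtk2_m2_mem_Ichi δ i)))
      (rtk2_lam_mem lam _ _)
  · have : (rtk2E22 q i : Rtk2P O ι τ) = (-2) * rtk2m3 i +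
        C lam * (C r * rtk2D i * rtk2a i - C r * rtk2B i * rtk2c i) := by
      simp only [rtk2E22, rtk2m3, rtk2B, rtk2C, rtk2D, rtk2nu]; rw [hCq]; ring
    rw [this]
    exact Ideal.add_mem _ (Ideal.mem_sup_left (Ideal.mul_mem_left _ _ (rtk2_m3_mem_Ichi δ i)))
      (rtk2_lam_mem lam _ _)

/-- `I_χ + (λ) ≤ I_1 + (λ)` (here `2` must be a unit). -/
theorem rtk2_Ichi_le_Ione_sup (h2 : IsUnit (2 : O)) (hq : ∀ i, ∃ r, q i = 1 + lam * r)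
    (hδ : ∀ i, ∃ r, δ i = lam * r) :
    rtk2Ichi τ δ ≤ rtk2Ione τ q ⊔ Ideal.span {(C lam : Rtk2P O ι τ)} := by
  obtain ⟨u, hu⟩ := h2.exists_left_inv
  have hCu : (C u : Rtk2P O ι τ) * 2 = 1 := by
    have : (C (u * 2) : Rtk2P O ι τ) = C (1 : O) := by rw [hu]
    rw [map_mul, map_one] at this
    rw [← this]; congr 1
  refine rtk2_Ichi_le fun i => ?_
  obtain ⟨r, hr⟩ := hq i
  obtain ⟨s, hs⟩ := hδ i
  have hCq : (C (q i) : Rtk2P O ι τ) = 1 + C lam * C r := by rw [hr]; simp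
  have hCδ : (C (δ i ^ 2) : Rtk2P O ι τ) = C lam * (C lam * C s ^ 2) := by
    rw [hs]; simp; ring
  refine ⟨?_, ?_, ?_, ?_⟩
  · have : (rtk2f δ i : Rtk2P O ι τ) = rtk2g i + C lam * (-(C lam * C s ^ 2)) := by
      simp only [rtk2g, rtk2f]; rw [hCδ]; ring
    rw [this]
    exact Ideal.add_mem _ (Ideal.mem_sup_left (rtk2_g_mem_Ione q i)) (rtk2_lam_mem lam _ _)
  · have : (rtk2m1 i : Rtk2P O ι τ) = (C u * C u) * rtk2E12 q i +
        C lam * ((C u * C u) * (C r * rtk2B i * rtk2a i + C r * rtk2D i * rtk2b i)) := by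
      have e : (rtk2E12 q i : Rtk2P O ι τ) = 4 * rtk2m1 i +
          C lam * (-(C r * rtk2B i * rtk2a i) - C r * rtk2D i * rtk2b i) := by
        simp only [rtk2E12, rtk2m1, rtk2A, rtk2B, rtk2D, rtk2nu]; rw [hCq]; ring
      rw [e]
      have h4 : (C u * C u : Rtk2P O ι τ) * 4 = 1 := by
        have : (C u * C u : Rtk2P O ι τ) * 4 = (C u * 2) * (C u * 2) := by ring
        rw [this, hCu, one_mul]
      linear_combination (-(rtk2m1 i : Rtk2P O ι τ)) * h4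
    rw [this]
    exact Ideal.add_mem _ (Ideal.mem_sup_left (Ideal.mul_mem_left _ _ (rtk2_E12_mem_Ione q i)))
      (rtk2_lam_mem lam _ _)
  · have : (rtk2m2 i : Rtk2P O ι τ) = (-(C u * C u)) * rtk2E21 q i +
        C lam * ((C u * C u) * (C r * rtk2C i * rtk2a i - C r * rtk2A i * rtk2c i)) := by
      have e : (rtk2E21 q i : Rtk2P O ι τ) = (-4) * rtk2m2 i +
          C lam * (C r * rtk2C i * rtk2a i - C r * rtk2A i * rtk2c i) := by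
        simp only [rtk2E21, rtk2m2, rtk2A, rtk2C, rtk2D, rtk2nu]; rw [hCq]; ring
      rw [e]
      have h4 : (C u * C u : Rtk2P O ι τ) * 4 = 1 := by
        have : (C u * C u : Rtk2P O ι τ) * 4 = (C u * 2) * (C u * 2) := by ring
        rw [this, hCu, one_mul]
      linear_combination (-(rtk2m2 i : Rtk2P O ι τ)) * h4
    rw [this]
    exact Ideal.add_mem _ (Ideal.mem_sup_left (Ideal.mul_mem_left _ _ (rtk2_E21_mem_Ione q i)))
      (rtk2_lam_mem lam _ _)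
  · have : (rtk2m3 i : Rtk2P O ι τ) = (C u) * rtk2E11 q i +
        C lam * (C u * (C r * rtk2A i * rtk2a i + C r * rtk2C i * rtk2b i)) := by
      have e : (rtk2E11 q i : Rtk2P O ι τ) = 2 * rtk2m3 i +
          C lam * (-(C r * rtk2A i * rtk2a i) - C r * rtk2C i * rtk2b i) := by
        simp only [rtk2E11, rtk2m3, rtk2A, rtk2B, rtk2C, rtk2nu]; rw [hCq]; ring
      rw [e]
      linear_combination (-(rtk2m3 i : Rtk2P O ι τ)) * hCu
    rw [this]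
    exact Ideal.add_mem _ (Ideal.mem_sup_left (Ideal.mul_mem_left _ _ (rtk2_E11_mem_Ione q i)))
      (rtk2_lam_mem lam _ _)

/-- **The special fibres agree**: `I_1 + (λ) = I_χ + (λ)`. -/
theorem rtk2_Ione_sup_eq (h2 : IsUnit (2 : O)) (hq : ∀ i, ∃ r, q i = 1 + lam * r)
    (hδ : ∀ i, ∃ r, δ i = lam * r) :
    rtk2Ione τ q ⊔ Ideal.span {(C lam : Rtk2P O ι τ)} =
      rtk2Ichi τ δ ⊔ Ideal.span {(C lam : Rtk2P O ι τ)} :=
  le_antisymm (sup_le (rtk2_Ione_le_Ichi_sup lam hq hδ) le_sup_right)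
    (sup_le (rtk2_Ichi_le_Ione_sup lam h2 hq hδ) le_sup_right)

end SpecialFibre

end Fermat.Agent.RT.K2
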