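import Fermat.Agent.RT.K2.FreeGen

/-!
# RT-K2, step A1: adjoining the `2 × 2` minors (a regular sequence is of linear type)

Let `𝔞` be a prime ideal of `MvPowerSeries σ R` generated by finitely many power series not
involving the three variables `x, y, z`, and let `a, b, c` be three further variables such that
`X a, X b, X c` is a regular sequence modulo `𝔞`.  Then the ideal
`𝔞 + (b x − a y, c x − a z, c y − b z)` is prime (`rtk2_a1`).

Proof: the ideal is homogeneous for the weights `1` on `x, y, z`; a homogeneous `u` lies in it iff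
`u(a, b, c) ∈ 𝔞` (`rtk2_a1_K`, by three nested inductions on the weight).
-/

set_option autoImplicit false

namespace Fermat.Agent.RT.K2

open MvPowerSeries Finsupp

variable {σ : Type*} {R : Type*} [CommRing R]

theorem Rtk2Free.insert {v : σ} {V : Set σ} {F : MvPowerSeries σ R} (hv : Rtk2Free {v} F)
    (hV : Rtk2Free V F) : Rtk2Free (insert v V) F := by
  rintro m ⟨u, hu | hu, hm⟩
  · exact hv m ⟨u, hu, hm⟩
  · exact hV m ⟨u, hu, hm⟩

/-! ## the evaluation `x ↦ a, y ↦ b, z ↦ c` -/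

section Ev

open Classical in
/-- The renaming `x ↦ a, y ↦ b, z ↦ c` of the variables. -/
noncomputable def rtk2E (x y z a b c : σ) : σ → σ :=
  fun s => if s = x then a else if s = y then b else if s = z then c else s

theorem rtk2_E_tendsto (x y z a b c : σ) : Filter.TendstoCofinite (rtk2E x y z a b c) := by
  refine (Filter.tendstoCofinite_iff_finite_preimage_singleton _).mpr fun t => ?_
  refine Set.Finite.subset (s := {t, x, y, z}) (Set.toFinite _) ?_
  intro s hs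
  simp only [Set.mem_preimage, Set.mem_singleton_iff] at hs
  unfold rtk2E at hs
  simp only [Set.mem_insert_iff, Set.mem_singleton_iff]
  split_ifs at hs with h1 h2 h3
  · right; left; exact h1
  · right; right; left; exact h2
  · right; right; right; exact h3
  · left; exact hs

theorem rtk2_E_of_not_mem {x y z a b c s : σ} (hs : s ∉ ({x, y, z} : Set σ)) :
    rtk2E x y z a b c s = s := by
  unfold rtk2E
  simp only [Set.mem_insert_iff, Set.mem_singleton_iff, not_or] at hs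
  rw [if_neg hs.1, if_neg hs.2.1, if_neg hs.2.2]

theorem rtk2_E_not_mem {x y z a b c : σ} (ha : a ∉ ({x, y, z} : Set σ))
    (hb : b ∉ ({x, y, z} : Set σ)) (hc : c ∉ ({x, y, z} : Set σ)) (s : σ) :
    rtk2E x y z a b c s ∉ ({x, y, z} : Set σ) := by
  unfold rtk2E
  split_ifs with h1 h2 h3
  · exact ha
  · exact hb
  · exact hc
  · simp only [Set.mem_insert_iff, Set.mem_singleton_iff, not_or]
    exact ⟨h1, h2, h3⟩

/-- The evaluation `F ↦ F(x := a, y := b, z := c)`. -/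
noncomputable def rtk2Ev (x y z a b c : σ) : MvPowerSeries σ R →+* MvPowerSeries σ R :=
  haveI := rtk2_E_tendsto x y z a b c
  (rename (rtk2E x y z a b c) : MvPowerSeries σ R →ₐ[R] MvPowerSeries σ R).toRingHom

theorem rtk2_ev_X (x y z a b c s : σ) :
    rtk2Ev x y z a b c (X s : MvPowerSeries σ R) = X (rtk2E x y z a b c s) := by
  haveI := rtk2_E_tendsto x y z a b c
  exact rename_X _ s

theorem rtk2_ev_free {x y z a b c : σ} (ha : a ∉ ({x, y, z} : Set σ))
    (hb : b ∉ ({x, y, z} : Set σ)) (hc : c ∉ ({x, y, z} : Set σ)) {F : MvPowerSeries σ R}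
    (hF : Rtk2Free {x, y, z} F) : rtk2Ev x y z a b c F = F := by
  classical
  haveI := rtk2_E_tendsto x y z a b c
  have hfix : ∀ m' : σ →₀ ℕ, (∀ v ∈ ({x, y, z} : Set σ), m' v = 0) →
      mapDomain (rtk2E x y z a b c) m' = m' := by
    intro m' hm'
    have : mapDomain (rtk2E x y z a b c) m' = mapDomain id m' := by
      refine mapDomain_congr fun s hs => ?_
      rw [id]
      refine rtk2_E_of_not_mem fun hsV => ?_
      exact (Finsupp.mem_support_iff.mp hs) (hm' s hsV)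
    rw [this, mapDomain_id]
  ext m
  show coeff m (rename (rtk2E x y z a b c) F) = coeff m F
  rw [coeff_rename]
  by_cases hm : ∃ v ∈ ({x, y, z} : Set σ), m v ≠ 0
  · rw [hF m hm]
    refine Finset.sum_eq_zero fun m' hm' => ?_
    exfalso
    rw [Set.Finite.mem_toFinset, Set.mem_preimage, Set.mem_singleton_iff] at hm'
    obtain ⟨v, hv, hmv⟩ := hm
    apply hmv
    rw [← hm']
    refine mapDomain_of_notMem_range _ _ ?_
    rintro ⟨s, hs⟩
    exact rtk2_E_not_mem ha hb hc s (hs ▸ hv)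
  · push Not at hm
    rw [Finset.sum_eq_single m]
    · intro m' hm' hne
      rw [Set.Finite.mem_toFinset, Set.mem_preimage, Set.mem_singleton_iff] at hm'
      by_cases hfree : ∀ v ∈ ({x, y, z} : Set σ), m' v = 0
      · exact absurd ((hfix m' hfree).symm.trans hm') hne
      · push Not at hfree
        exact hF m' hfree
    · intro hnot
      exfalso
      apply hnot
      rw [Set.Finite.mem_toFinset, Set.mem_preimage, Set.mem_singleton_iff]
      exact hfix m hm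

end Ev

/-! ## the minors -/

/-- The minor `b x − a y`. -/
noncomputable def rtk2Mi (x y a b : σ) : MvPowerSeries σ R := X b * X x - X a * X y

/-- The hypotheses of step A1, bundled. -/
structure Rtk2Rees (x y z a b c : σ) (𝔞 : Ideal (MvPowerSeries σ R)) (w : σ → ℕ)
    (ev : MvPowerSeries σ R →+* MvPowerSeries σ R) : Prop where
  hxy : x ≠ y
  hxz : x ≠ z
  hyz : y ≠ z
  ha : a ∉ ({x, y, z} : Set σ)
  hb : b ∉ ({x, y, z} : Set σ)
  hc : c ∉ ({x, y, z} : Set σ)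
  wx : w x = 1
  wy : w y = 1
  wz : w z = 1
  w0 : ∀ s, s ∉ ({x, y, z} : Set σ) → w s = 0
  gen : Rtk2FreeGen {x, y, z} 𝔞
  ev_x : ev (X x) = X a
  ev_y : ev (X y) = X b
  ev_z : ev (X z) = X c
  ev_free : ∀ F, Rtk2Free {x, y, z} F → ev F = F
  H1 : ∀ F, X a * F ∈ 𝔞 → F ∈ 𝔞
  H2 : ∀ F, X b * F ∈ 𝔞 ⊔ Ideal.span {X a} → F ∈ 𝔞 ⊔ Ideal.span {X a}
  H3 : ∀ F, X c * F ∈ 𝔞 ⊔ Ideal.span {X a, X b} → F ∈ 𝔞 ⊔ Ideal.span {X a, X b}

namespace Rtk2Rees

variable {x y z a b c : σ} {𝔞 : Ideal (MvPowerSeries σ R)} {w : σ → ℕ}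
  {ev : MvPowerSeries σ R →+* MvPowerSeries σ R} (D : Rtk2Rees x y z a b c 𝔞 w ev)

include D

theorem wpos : ∀ s ∈ ({x, y, z} : Set σ), w s ≠ 0 := by
  intro s hs
  simp only [Set.mem_insert_iff, Set.mem_singleton_iff] at hs
  rcases hs with rfl | rfl | rfl
  · rw [D.wx]; exact one_ne_zero
  · rw [D.wy]; exact one_ne_zero
  · rw [D.wz]; exact one_ne_zero

theorem free_a : Rtk2Free {x, y, z} (X a : MvPowerSeries σ R) := rtk2_free_X D.ha
theorem free_b : Rtk2Free {x, y, z} (X b : MvPowerSeries σ R) := rtk2_free_X D.hb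
theorem free_c : Rtk2Free {x, y, z} (X c : MvPowerSeries σ R) := rtk2_free_X D.hc

theorem ev_a : ev (X a) = X a := D.ev_free _ D.free_a
theorem ev_b : ev (X b) = X b := D.ev_free _ D.free_b
theorem ev_c : ev (X c) = X c := D.ev_free _ D.free_c

theorem wh_a : Rtk2WH w (X a : MvPowerSeries σ R) 0 := D.free_a.wh_zero D.w0
theorem wh_b : Rtk2WH w (X b : MvPowerSeries σ R) 0 := D.free_b.wh_zero D.w0
theorem wh_c : Rtk2WH w (X c : MvPowerSeries σ R) 0 := D.free_c.wh_zero D.w0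

theorem wh_x : Rtk2WH w (X x : MvPowerSeries σ R) 1 := by
  have := rtk2_WH_X (R := R) w x; rwa [D.wx] at this
theorem wh_y : Rtk2WH w (X y : MvPowerSeries σ R) 1 := by
  have := rtk2_WH_X (R := R) w y; rwa [D.wy] at this
theorem wh_z : Rtk2WH w (X z : MvPowerSeries σ R) 1 := by
  have := rtk2_WH_X (R := R) w z; rwa [D.wz] at this

theorem ev_mem {α : MvPowerSeries σ R} (hα : α ∈ 𝔞) : ev α ∈ 𝔞 := by
  obtain ⟨κ, i, γ, rfl, hγ⟩ := D.gen
  obtain ⟨cf, rfl⟩ := (Ideal.mem_span_range_iff_exists_fun).mp hα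
  rw [map_sum]
  refine Ideal.sum_mem _ fun k _ => ?_
  rw [map_mul, D.ev_free _ (hγ k)]
  exact Ideal.mul_mem_left _ _ (Ideal.subset_span ⟨k, rfl⟩)

theorem ev_wh0 {u : MvPowerSeries σ R} (hu : Rtk2WH w u 0) : ev u = u :=
  D.ev_free _ (hu.free D.wpos)

theorem eq_zero {u : MvPowerSeries σ R} {n : ℕ} (hu : Rtk2WH w u (n + 1))
    (hfree : Rtk2Free {x, y, z} u) : u = 0 :=
  hu.eq_zero_of_ne (hfree.wh_zero D.w0) (by omega)

theorem comp0_mem {α : MvPowerSeries σ R} (hα : α ∈ 𝔞) : rtk2Comp w 0 α ∈ 𝔞 :=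
  D.gen.comp_mem D.w0 hα 0

/-- peeling `z` off an element free of `x, y`. -/
theorem peel_z {u : MvPowerSeries σ R} {n : ℕ} (hu : Rtk2WH w u (n + 1))
    (hfree : Rtk2Free {x, y} u) :
    u = X z * rtk2Shift z u ∧ Rtk2WH w (rtk2Shift z u) n ∧ Rtk2Free {x, y} (rtk2Shift z u) := by
  have h0 : rtk2Kill z u = 0 := by
    refine D.eq_zero (hu.kill z) ?_
    have h1 : Rtk2Free {z} (rtk2Kill z u) := rtk2_free_kill z u
    have h2 : Rtk2Free {x, y} (rtk2Kill z u) := hfree.kill z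
    have h3 : Rtk2Free {x} (rtk2Kill z u) := h2.mono (by simp)
    have h4 : Rtk2Free {y} (rtk2Kill z u) := h2.mono (by simp)
    exact h3.insert (h4.insert h1)
  refine ⟨?_, ?_, hfree.shift z⟩
  · have := rtk2_kill_add_X_mul_shift z u
    rw [h0, zero_add] at this
    exact this.symm
  · have := hu.shift z
    rwa [D.wz, Nat.add_sub_cancel] at this

/-- **K₁** -/
theorem stepK1 : ∀ (n : ℕ) (u : MvPowerSeries σ R), Rtk2WH w u n → Rtk2Free {x, y} u →
    ev u ∈ 𝔞 ⊔ Ideal.span {X a, X b} →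
    ∃ α h' h'' : MvPowerSeries σ R, α ∈ 𝔞 ∧ Rtk2WH w h' n ∧ Rtk2Free {x, y} h' ∧
      Rtk2WH w h'' n ∧ Rtk2Free {x, y} h'' ∧ u = α + X a * h' + X b * h'' := by
  intro n
  induction n with
  | zero =>
    intro u hu _ hev
    rw [D.ev_wh0 hu] at hev
    obtain ⟨α, hα, β, hβ, hsum⟩ := Submodule.mem_sup.mp hev
    obtain ⟨p, q, rfl⟩ := Ideal.mem_span_pair.mp hβ
    have hsub : ({x, y} : Set σ) ⊆ {x, y, z} := by
      intro s hs
      simp only [Set.mem_insert_iff, Set.mem_singleton_iff] at hs ⊢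
      rcases hs with h | h
      · exact Or.inl h
      · exact Or.inr (Or.inl h)
    refine ⟨rtk2Comp w 0 α, rtk2Comp w 0 p, rtk2Comp w 0 q, D.comp0_mem hα,
      rtk2_WH_comp w 0 p, ((rtk2_WH_comp w 0 p).free D.wpos).mono hsub,
      rtk2_WH_comp w 0 q, ((rtk2_WH_comp w 0 q).free D.wpos).mono hsub, ?_⟩
    have h1 := congrArg (rtk2Comp w 0) hsum
    rw [hu.comp_eq, map_add, map_add] at h1
    have h2 : rtk2Comp w 0 (p * X a) = rtk2Comp w 0 p * X a :=
      rtk2_comp_mul_WH (d := 0) D.wh_a p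
    have h3 : rtk2Comp w 0 (q * X b) = rtk2Comp w 0 q * X b :=
      rtk2_comp_mul_WH (d := 0) D.wh_b q
    rw [h2, h3] at h1
    rw [← h1]
    ring
  | succ n ih =>
    intro u hu hfree hev
    obtain ⟨hz, hW, hF⟩ := D.peel_z hu hfree
    have hev' : ev (rtk2Shift z u) ∈ 𝔞 ⊔ Ideal.span {X a, X b} := by
      apply D.H3
      rw [← D.ev_z, ← map_mul, ← hz]
      exact hev
    obtain ⟨α, h', h'', hα, hh'W, hh'F, hh''W, hh''F, hsum⟩ := ih _ hW hF hev'
    have hzF : Rtk2Free {x, y} (X z : MvPowerSeries σ R) := by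
      refine rtk2_free_X ?_
      simp only [Set.mem_insert_iff, Set.mem_singleton_iff, not_or]
      exact ⟨D.hxz.symm, D.hyz.symm⟩
    have hWz : ∀ {G : MvPowerSeries σ R}, Rtk2WH w G n → Rtk2WH w (X z * G) (n + 1) := by
      intro G hG
      have := D.wh_z.mul hG
      rwa [add_comm] at this
    refine ⟨X z * α, X z * h', X z * h'', Ideal.mul_mem_left _ _ hα, hWz hh'W, hzF.mul hh'F,
      hWz hh''W, hzF.mul hh''F, ?_⟩
    rw [hz, hsum]
    ring

theorem ev_m3 : ev (rtk2Mi y z b c : MvPowerSeries σ R) = 0 := by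
  unfold rtk2Mi
  rw [map_sub, map_mul, map_mul, D.ev_y, D.ev_z, D.ev_b, D.ev_c]
  ring

theorem ev_m2 : ev (rtk2Mi x z a c : MvPowerSeries σ R) = 0 := by
  unfold rtk2Mi
  rw [map_sub, map_mul, map_mul, D.ev_x, D.ev_z, D.ev_a, D.ev_c]
  ring

theorem ev_m1 : ev (rtk2Mi x y a b : MvPowerSeries σ R) = 0 := by
  unfold rtk2Mi
  rw [map_sub, map_mul, map_mul, D.ev_x, D.ev_y, D.ev_a, D.ev_b]
  ring

theorem free_y_x : Rtk2Free {x} (X y : MvPowerSeries σ R) :=
  rtk2_free_X (by simpa using D.hxy.symm)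

/-- **K₂** -/
theorem stepK2 : ∀ (n : ℕ) (u : MvPowerSeries σ R), Rtk2WH w u n → Rtk2Free {x} u →
    ev u ∈ 𝔞 ⊔ Ideal.span {X a} →
    ∃ α G H : MvPowerSeries σ R, α ∈ 𝔞 ∧ Rtk2WH w G n ∧ Rtk2Free {x} G ∧
      u = α + X a * G + rtk2Mi y z b c * H := by
  have hle : 𝔞 ⊔ Ideal.span {X a} ≤ 𝔞 ⊔ Ideal.span {(X a : MvPowerSeries σ R), X b} :=
    sup_le_sup_left (Ideal.span_mono (by simp)) _
  intro n
  induction n with
  | zero =>
    intro u hu _ hev
    rw [D.ev_wh0 hu] at hev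
    obtain ⟨α, hα, β, hβ, hsum⟩ := Submodule.mem_sup.mp hev
    obtain ⟨p, rfl⟩ := Ideal.mem_span_singleton'.mp hβ
    refine ⟨rtk2Comp w 0 α, rtk2Comp w 0 p, 0, D.comp0_mem hα, rtk2_WH_comp w 0 p,
      ((rtk2_WH_comp w 0 p).free D.wpos).mono (by simp), ?_⟩
    have h1 := congrArg (rtk2Comp w 0) hsum
    rw [hu.comp_eq, map_add] at h1
    have h2 : rtk2Comp w 0 (p * X a) = rtk2Comp w 0 p * X a :=
      rtk2_comp_mul_WH (d := 0) D.wh_a p
    rw [h2] at h1
    rw [← h1]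
    ring
  | succ n ih =>
    intro u hu hfree hev
    set u₁ := rtk2Shift y u with hu₁
    set u₂ := rtk2Kill y u with hu₂
    have hdec : u = u₂ + X y * u₁ := (rtk2_kill_add_X_mul_shift y u).symm
    have hu₁W : Rtk2WH w u₁ n := by
      have := hu.shift y
      rwa [D.wy, Nat.add_sub_cancel] at this
    have hu₁F : Rtk2Free {x} u₁ := hfree.shift y
    have hu₂W : Rtk2WH w u₂ (n + 1) := hu.kill y
    have hu₂F : Rtk2Free {x, y} u₂ := (hfree.kill y).insert (rtk2_free_kill y u)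
    have hev₂ : ev u₂ ∈ 𝔞 ⊔ Ideal.span {X a, X b} := by
      have e : ev u₂ = ev u - X b * ev u₁ := by
        rw [hdec, map_add, map_mul, D.ev_y]; ring
      rw [e]
      refine Ideal.sub_mem _ (hle hev) (Ideal.mem_sup_right ?_)
      exact Ideal.mul_mem_right _ _ (Ideal.subset_span (by simp))
    obtain ⟨α, h', h'', hα, hh'W, hh'F, hh''W, hh''F, hsum⟩ := D.stepK1 _ u₂ hu₂W hu₂F hev₂
    obtain ⟨hz, hh₃W, hh₃F⟩ := D.peel_z hh''W hh''F
    set h₃ := rtk2Shift z h'' with hh₃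
    obtain ⟨u₁', hu₁'⟩ : ∃ v, v = u₁ + X c * h₃ := ⟨_, rfl⟩
    have hu₁'W : Rtk2WH w u₁' n := by
      have := D.wh_c.mul hh₃W
      rw [zero_add] at this
      rw [hu₁']
      exact hu₁W.add this
    have hcx : Rtk2Free {x} (X c : MvPowerSeries σ R) := D.free_c.mono (by simp)
    have hu₁'F : Rtk2Free {x} u₁' := by
      rw [hu₁']
      exact hu₁F.add (hcx.mul (hh₃F.mono (by simp)))
    have hid : u = X y * u₁' + α + X a * h' - rtk2Mi y z b c * h₃ := by
      have e1 : X b * h'' = X b * (X z * h₃) := by rw [← hz]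
      rw [hdec, hsum, e1, hu₁']
      unfold rtk2Mi
      ring
    have hev₁ : ev u₁' ∈ 𝔞 ⊔ Ideal.span {X a} := by
      apply D.H2
      have e : X b * ev u₁' = ev u - ev α - X a * ev h' := by
        conv_rhs => rw [hid]
        simp only [map_sub, map_add, map_mul, D.ev_m3, D.ev_y, D.ev_a]
        ring
      rw [e]
      refine Ideal.sub_mem _ (Ideal.sub_mem _ hev (Ideal.mem_sup_left (D.ev_mem hα)))
        (Ideal.mem_sup_right ?_)
      exact Ideal.mul_mem_right _ _ (Ideal.subset_span (by simp))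
    obtain ⟨α₁, G₁, H₁, hα₁, hG₁W, hG₁F, hsum₁⟩ := ih u₁' hu₁'W hu₁'F hev₁
    refine ⟨X y * α₁ + α, X y * G₁ + h', X y * H₁ - h₃,
      Ideal.add_mem _ (Ideal.mul_mem_left _ _ hα₁) hα, ?_, ?_, ?_⟩
    · have := D.wh_y.mul hG₁W
      rw [add_comm] at this
      exact this.add hh'W
    · exact (D.free_y_x.mul hG₁F).add (hh'F.mono (by simp))
    · rw [hid, hsum₁]
      ring

/-- **K**: a weighted homogeneous `u` with `u(a, b, c) ∈ 𝔞` lies in `𝔞 + (minors)`. -/
theorem stepK : ∀ (n : ℕ) (u : MvPowerSeries σ R), Rtk2WH w u n → ev u ∈ 𝔞 →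
    u ∈ 𝔞 ⊔ Ideal.span {rtk2Mi x y a b, rtk2Mi x z a c, rtk2Mi y z b c} := by
  intro n
  induction n with
  | zero =>
    intro u hu hev
    rw [D.ev_wh0 hu] at hev
    exact Ideal.mem_sup_left hev
  | succ n ih =>
    intro u hu hev
    set u₁ := rtk2Shift x u with hu₁
    set u₂ := rtk2Kill x u with hu₂
    have hdec : u = u₂ + X x * u₁ := (rtk2_kill_add_X_mul_shift x u).symm
    have hu₁W : Rtk2WH w u₁ n := by
      have := hu.shift x
      rwa [D.wx, Nat.add_sub_cancel] at this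
    have hu₂W : Rtk2WH w u₂ (n + 1) := hu.kill x
    have hu₂F : Rtk2Free {x} u₂ := rtk2_free_kill x u
    have hev₂ : ev u₂ ∈ 𝔞 ⊔ Ideal.span {X a} := by
      have e : ev u₂ = ev u - X a * ev u₁ := by
        rw [hdec, map_add, map_mul, D.ev_x]; ring
      rw [e]
      refine Ideal.sub_mem _ (Ideal.mem_sup_left hev) (Ideal.mem_sup_right ?_)
      exact Ideal.mul_mem_right _ _ (Ideal.subset_span (by simp))
    obtain ⟨α, G, H, hα, hGW, hGF, hsum⟩ := D.stepK2 _ u₂ hu₂W hu₂F hev₂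
    set GY := rtk2Shift y G with hGY
    set G₀ := rtk2Kill y G with hG₀
    have hGdec : G = G₀ + X y * GY := (rtk2_kill_add_X_mul_shift y G).symm
    have hGYW : Rtk2WH w GY n := by
      have := hGW.shift y
      rwa [D.wy, Nat.add_sub_cancel] at this
    have hG₀W : Rtk2WH w G₀ (n + 1) := hGW.kill y
    have hG₀F : Rtk2Free {x, y} G₀ := (hGF.kill y).insert (rtk2_free_kill y G)
    obtain ⟨hz, hGZW, -⟩ := D.peel_z hG₀W hG₀F
    set GZ := rtk2Shift z G₀ with hGZ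
    obtain ⟨u₁', hu₁'⟩ : ∃ v, v = u₁ + X b * GY + X c * GZ := ⟨_, rfl⟩
    have hu₁'W : Rtk2WH w u₁' n := by
      have h1 := D.wh_b.mul hGYW
      have h2 := D.wh_c.mul hGZW
      rw [zero_add] at h1 h2
      rw [hu₁']
      exact (hu₁W.add h1).add h2
    have hid : u = X x * u₁' + α + rtk2Mi y z b c * H - rtk2Mi x y a b * GY
        - rtk2Mi x z a c * GZ := by
      have e1 : X a * G = X a * (X z * GZ + X y * GY) := by rw [← hz, ← hGdec]
      rw [hdec, hsum, e1, hu₁']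
      unfold rtk2Mi
      ring
    have hev₁ : ev u₁' ∈ 𝔞 := by
      apply D.H1
      have e : X a * ev u₁' = ev u - ev α := by
        conv_rhs => rw [hid]
        simp only [map_sub, map_add, map_mul, D.ev_m3, D.ev_m2, D.ev_m1, D.ev_x]
        ring
      rw [e]
      exact Ideal.sub_mem _ hev (D.ev_mem hα)
    have hmem := ih u₁' hu₁'W hev₁
    rw [hid]
    have hJ : ∀ g ∈ ({rtk2Mi x y a b, rtk2Mi x z a c, rtk2Mi y z b c} :
        Set (MvPowerSeries σ R)), ∀ F : MvPowerSeries σ R, g * F ∈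
        𝔞 ⊔ Ideal.span {rtk2Mi x y a b, rtk2Mi x z a c, rtk2Mi y z b c} := fun g hg F =>
      Ideal.mem_sup_right (Ideal.mul_mem_right _ _ (Ideal.subset_span hg))
    refine Ideal.sub_mem _ (Ideal.sub_mem _ (Ideal.add_mem _ (Ideal.add_mem _
      (Ideal.mul_mem_left _ _ hmem) (Ideal.mem_sup_left hα)) (hJ _ (by simp) _))
      (hJ _ (by simp) _)) (hJ _ (by simp) _)

end Rtk2Rees

theorem rtk2_range_vec3 {α : Type*} (p q r : α) : Set.range ![p, q, r] = {p, q, r} := by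
  ext t
  simp only [Set.mem_range, Set.mem_insert_iff, Set.mem_singleton_iff]
  constructor
  · rintro ⟨k, rfl⟩
    fin_cases k
    · exact Or.inl rfl
    · exact Or.inr (Or.inl rfl)
    · exact Or.inr (Or.inr rfl)
  · rintro (rfl | rfl | rfl)
    · exact ⟨0, rfl⟩
    · exact ⟨1, rfl⟩
    · exact ⟨2, rfl⟩

/-- **A1**: if the prime `𝔞` is generated by finitely many power series not involving `x, y, z`
and `X a, X b, X c` is a regular sequence modulo `𝔞`, then `𝔞 + (bx − ay, cx − az, cy − bz)` is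
prime. -/
theorem rtk2_a1 {x y z a b c : σ} (hxy : x ≠ y) (hxz : x ≠ z) (hyz : y ≠ z)
    (ha : a ∉ ({x, y, z} : Set σ)) (hb : b ∉ ({x, y, z} : Set σ)) (hc : c ∉ ({x, y, z} : Set σ))
    {𝔞 : Ideal (MvPowerSeries σ R)} [h𝔞 : 𝔞.IsPrime] (hgen : Rtk2FreeGen {x, y, z} 𝔞)
    (H1 : ∀ F, X a * F ∈ 𝔞 → F ∈ 𝔞)
    (H2 : ∀ F, X b * F ∈ 𝔞 ⊔ Ideal.span {X a} → F ∈ 𝔞 ⊔ Ideal.span {X a})
    (H3 : ∀ F, X c * F ∈ 𝔞 ⊔ Ideal.span {X a, X b} → F ∈ 𝔞 ⊔ Ideal.span {X a, X b}) :
    (𝔞 ⊔ Ideal.span {rtk2Mi x y a b, rtk2Mi x z a c, rtk2Mi y z b c}).IsPrime := by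
  classical
  let w : σ → ℕ := fun s => if s ∈ ({x, y, z} : Set σ) then 1 else 0
  have hE : ∀ s ∈ ({x, y, z} : Set σ), ∀ t, rtk2E x y z a b c s = t →
      rtk2Ev x y z a b c (X s : MvPowerSeries σ R) = X t := by
    intro s _ t ht
    rw [rtk2_ev_X, ht]
  have D : Rtk2Rees x y z a b c 𝔞 w (rtk2Ev x y z a b c) :=
    { hxy := hxy, hxz := hxz, hyz := hyz, ha := ha, hb := hb, hc := hc
      wx := if_pos (by simp)
      wy := if_pos (by simp)
      wz := if_pos (by simp)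
      w0 := fun s hs => if_neg hs
      gen := hgen
      ev_x := hE x (by simp) a (by unfold rtk2E; rw [if_pos rfl])
      ev_y := hE y (by simp) b (by unfold rtk2E; rw [if_neg hxy.symm, if_pos rfl])
      ev_z := hE z (by simp) c (by
        unfold rtk2E; rw [if_neg hxz.symm, if_neg hyz.symm, if_pos rfl])
      ev_free := fun F hF => rtk2_ev_free ha hb hc hF
      H1 := H1, H2 := H2, H3 := H3 }
  obtain ⟨κ, iκ, γ, h𝔞eq, hγ⟩ := hgen
  set J : Ideal (MvPowerSeries σ R) :=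
    Ideal.span {rtk2Mi x y a b, rtk2Mi x z a c, rtk2Mi y z b c} with hJ
  let μ : Fin 3 → MvPowerSeries σ R := ![rtk2Mi x y a b, rtk2Mi x z a c, rtk2Mi y z b c]
  have hspan : 𝔞 ⊔ J = Ideal.span (Set.range (Sum.elim γ μ)) := by
    rw [Set.Sum.elim_range, Ideal.span_union, ← h𝔞eq, rtk2_range_vec3]
  have hmi : ∀ (p q r s : σ), Rtk2WH w (X s : MvPowerSeries σ R) 0 →
      Rtk2WH w (X r : MvPowerSeries σ R) 0 → Rtk2WH w (X p : MvPowerSeries σ R) 1 →
      Rtk2WH w (X q : MvPowerSeries σ R) 1 → Rtk2WH w (rtk2Mi p q r s : MvPowerSeries σ R) 1 := by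
    intro p q r s hs hr hp hq
    unfold rtk2Mi
    have h1 := hs.mul hp
    have h2 := hr.mul hq
    rw [zero_add] at h1 h2
    exact h1.sub h2
  have hWH : ∀ k : κ ⊕ Fin 3, Rtk2WH w (Sum.elim γ μ k)
      (Sum.elim (fun _ => 0) (fun _ => 1) k) := by
    rintro (k | k)
    · exact (hγ k).wh_zero D.w0
    · fin_cases k
      · exact hmi _ _ _ _ D.wh_b D.wh_a D.wh_x D.wh_y
      · exact hmi _ _ _ _ D.wh_c D.wh_a D.wh_x D.wh_z
      · exact hmi _ _ _ _ D.wh_c D.wh_b D.wh_y D.wh_z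
  have hevle : 𝔞 ⊔ J ≤ Ideal.comap (rtk2Ev x y z a b c) 𝔞 := by
    refine sup_le (fun α hα => D.ev_mem hα) ?_
    rw [hJ, Ideal.span_le]
    intro g hg
    simp only [Set.mem_insert_iff, Set.mem_singleton_iff] at hg
    show rtk2Ev x y z a b c g ∈ 𝔞
    rcases hg with rfl | rfl | rfl
    · rw [D.ev_m1]; exact Ideal.zero_mem _
    · rw [D.ev_m2]; exact Ideal.zero_mem _
    · rw [D.ev_m3]; exact Ideal.zero_mem _
  refine rtk2_isPrime_of_homogeneous (w := w) _ ?_ ?_ ?_ ?_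
  · intro htop
    have h1 : (1 : MvPowerSeries σ R) ∈ 𝔞 ⊔ J := by rw [htop]; trivial
    have h2 := hevle h1
    rw [Ideal.mem_comap, map_one] at h2
    exact h𝔞.ne_top ((Ideal.eq_top_iff_one _).mpr h2)
  · intro F hF d
    rw [hspan] at hF ⊢
    exact rtk2_comp_mem_span _ _ hWH hF d
  · intro F hF
    rw [hspan] at hF ⊢
    exact rtk2_mem_span_of_comp _ _ hWH hF
  · intro u v d e hu hv huv
    have h1 := hevle huv
    rw [Ideal.mem_comap, map_mul] at h1
    rcases h𝔞.mem_or_mem h1 with h | h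
    · exact Or.inl (D.stepK d u hu h)
    · exact Or.inr (D.stepK e v hv h)

end Fermat.Agent.RT.K2
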