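import Fermat.Agent.RT.K2.FreeGen

/-!
# RT-K2: generic primality tools

* `rtk2_nzd_sup` : if `𝔭 + (t)` is prime, `f ∉ 𝔭 + (t)` and `t` is a nonzerodivisor modulo `𝔭`,
  then `t` is a nonzerodivisor modulo `𝔭 + (f)`;
* `rtk2_isPrime_of_sup_span` : if `𝔭 + (t)` is prime, `t` is a nonzerodivisor modulo `𝔭` and `t`
  lies in the Jacobson radical of the Noetherian ring `A`, then `𝔭` is prime;
* `rtk2_isPrime_sup_X` : adjoining a free variable to a prime of `MvPowerSeries σ R`;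
* `rtk2_span_C_isPrime` : `(C λ)` is prime in `MvPowerSeries σ O` for a prime element `λ`;
* `rtk2_regular_abc` : `X a, X b, X c` is a regular sequence modulo `𝔞' + (a² + bc − d)`.
-/

set_option autoImplicit false

namespace Fermat.Agent.RT.K2

open MvPowerSeries Finsupp

section Abstract

variable {A : Type*} [CommRing A]

/-- If `𝔭 + (t)` is prime, `f ∉ 𝔭 + (t)` and `t` is a nonzerodivisor modulo `𝔭`, then `t` is a
nonzerodivisor modulo `𝔭 + (f)`. -/
theorem rtk2_nzd_sup {𝔭 : Ideal A} {t f : A} (hprime : (𝔭 ⊔ Ideal.span {t}).IsPrime)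
    (hf : f ∉ 𝔭 ⊔ Ideal.span {t}) (hnzd : ∀ F, t * F ∈ 𝔭 → F ∈ 𝔭) :
    ∀ F, t * F ∈ 𝔭 ⊔ Ideal.span {f} → F ∈ 𝔭 ⊔ Ideal.span {f} := by
  intro F hF
  obtain ⟨α, hα, β, hβ, hsum⟩ := Submodule.mem_sup.mp hF
  obtain ⟨h, rfl⟩ := Ideal.mem_span_singleton'.mp hβ
  have h1 : h * f ∈ 𝔭 ⊔ Ideal.span {t} := by
    have : h * f = t * F - α := by rw [← hsum]; ring
    rw [this]
    exact Ideal.sub_mem _ (Ideal.mem_sup_right
      (Ideal.mul_mem_right _ _ (Ideal.mem_span_singleton_self t))) (Ideal.mem_sup_left hα)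
  have h2 : h ∈ 𝔭 ⊔ Ideal.span {t} := (hprime.mem_or_mem h1).resolve_right hf
  obtain ⟨α', hα', β', hβ', hsum'⟩ := Submodule.mem_sup.mp h2
  obtain ⟨h', rfl⟩ := Ideal.mem_span_singleton'.mp hβ'
  have h3 : t * (F - h' * f) ∈ 𝔭 := by
    have : t * (F - h' * f) = α + α' * f := by
      rw [mul_sub, ← hsum, ← hsum']; ring
    rw [this]
    exact Ideal.add_mem _ hα (Ideal.mul_mem_right _ _ hα')
  have h4 := hnzd _ h3
  have : F = (F - h' * f) + h' * f := by ring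
  rw [this]
  exact Ideal.add_mem _ (Ideal.mem_sup_left h4)
    (Ideal.mem_sup_right (Ideal.mul_mem_left _ _ (Ideal.mem_span_singleton_self f)))

/-- Ideals of a Noetherian ring are closed for the `I`-adic topology, `I ≤ rad A`. -/
theorem rtk2_closed_of_le_jacobson [IsNoetherianRing A] (I : Ideal A)
    (hI : I ≤ Ideal.jacobson ⊥) (𝔞 : Ideal A) (s : A) (hs : ∀ n, s ∈ 𝔞 ⊔ I ^ n) : s ∈ 𝔞 := by
  have hH : IsHausdorff I (A ⧸ 𝔞) := IsHausdorff.of_le_jacobson I (A ⧸ 𝔞) hI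
  rw [← Ideal.Quotient.eq_zero_iff_mem]
  refine hH.haus _ fun n => ?_
  rw [SModEq.zero]
  obtain ⟨a, ha, b, hb, rfl⟩ := Submodule.mem_sup.mp (hs n)
  rw [map_add, Ideal.Quotient.eq_zero_iff_mem.mpr ha, zero_add]
  have : Ideal.Quotient.mk 𝔞 b = b • (1 : A ⧸ 𝔞) := by
    rw [Algebra.smul_def, mul_one]; rfl
  rw [this]
  exact Submodule.smul_mem_smul hb Submodule.mem_top

/-- If `𝔭 + (t)` is prime, `t` is a nonzerodivisor modulo `𝔭` and `t ∈ rad A`, then `𝔭` is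
prime. -/
theorem rtk2_isPrime_of_sup_span [IsNoetherianRing A] {𝔭 : Ideal A} {t : A}
    (ht : Ideal.span {t} ≤ Ideal.jacobson ⊥) (hprime : (𝔭 ⊔ Ideal.span {t}).IsPrime)
    (hnzd : ∀ F, t * F ∈ 𝔭 → F ∈ 𝔭) : 𝔭.IsPrime := by
  classical
  have hpow : ∀ (n : ℕ) (F : A), t ^ n * F ∈ 𝔭 → F ∈ 𝔭 := by
    intro n
    induction n with
    | zero => intro F hF; simpa using hF
    | succ n ih =>
      intro F hF
      apply ih
      apply hnzd
      rw [← mul_assoc, ← pow_succ']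
      exact hF
  have key : ∀ x, x ∉ 𝔭 → ∃ (n : ℕ) (x' : A), x - t ^ n * x' ∈ 𝔭 ∧
      x' ∉ 𝔭 ⊔ Ideal.span {t} := by
    intro x hx
    have hex : ∃ n, x ∉ 𝔭 ⊔ Ideal.span {t} ^ n := by
      by_contra h
      push Not at h
      exact hx (rtk2_closed_of_le_jacobson _ ht 𝔭 x h)
    have hn : x ∉ 𝔭 ⊔ Ideal.span {t} ^ (Nat.find hex) := Nat.find_spec hex
    have hn0 : Nat.find hex ≠ 0 := by
      intro h0
      rw [h0, pow_zero, Ideal.one_eq_top, sup_top_eq] at hn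
      exact hn trivial
    obtain ⟨k, hk⟩ := Nat.exists_eq_succ_of_ne_zero hn0
    have hk' : x ∈ 𝔭 ⊔ Ideal.span {t} ^ k := by
      by_contra h
      exact Nat.find_min hex (by omega) h
    rw [Ideal.span_singleton_pow] at hk'
    obtain ⟨p, hp, β, hβ, hsum⟩ := Submodule.mem_sup.mp hk'
    obtain ⟨x', rfl⟩ := Ideal.mem_span_singleton'.mp hβ
    refine ⟨k, x', ?_, ?_⟩
    · have : x - t ^ k * x' = p := by rw [← hsum]; ring
      rw [this]; exact hp
    · intro hx'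
      apply hn
      rw [hk, Ideal.span_singleton_pow]
      obtain ⟨p', hp', β', hβ', hsum'⟩ := Submodule.mem_sup.mp hx'
      obtain ⟨x'', rfl⟩ := Ideal.mem_span_singleton'.mp hβ'
      have : x = (p + t ^ k * p') + x'' * t ^ (k + 1) := by
        rw [← hsum, ← hsum']; ring
      rw [this]
      exact Ideal.add_mem _
        (Ideal.mem_sup_left (Ideal.add_mem _ hp (Ideal.mul_mem_left _ _ hp')))
        (Ideal.mem_sup_right (Ideal.mul_mem_left _ _ (Ideal.mem_span_singleton_self _)))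
  refine (Ideal.isPrime_iff).mpr ⟨?_, ?_⟩
  · intro htop
    exact hprime.ne_top (by rw [htop, top_sup_eq])
  · intro x y hxy
    by_contra hcon
    push Not at hcon
    obtain ⟨n, x', hx1, hx2⟩ := key x hcon.1
    obtain ⟨m, y', hy1, hy2⟩ := key y hcon.2
    have h1 : t ^ (n + m) * (x' * y') ∈ 𝔭 := by
      have : t ^ (n + m) * (x' * y') =
          x * y - (x - t ^ n * x') * y - (t ^ n * x') * (y - t ^ m * y') := by ring
      rw [this]
      exact Ideal.sub_mem _ (Ideal.sub_mem _ hxy (Ideal.mul_mem_right _ _ hx1))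
        (Ideal.mul_mem_left _ _ hy1)
    have h2 := hpow _ _ h1
    rcases hprime.mem_or_mem (Ideal.mem_sup_left h2) with h | h
    · exact hx2 h
    · exact hy2 h

end Abstract

section PowerSeries

variable {σ : Type*} {R : Type*} [CommRing R]

theorem rtk2_kill_add_X_mul {v : σ} {A : MvPowerSeries σ R} (hA : Rtk2Free {v} A)
    (B : MvPowerSeries σ R) : rtk2Kill v (A + X v * B) = A := by
  unfold rtk2Kill
  rw [map_add, rtk2_shift_X_mul, hA.shift_eq_zero]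
  ring

/-- `F ↦ F|_{v = 0}` is multiplicative. -/
theorem rtk2_kill_mul (v : σ) (F G : MvPowerSeries σ R) :
    rtk2Kill v (F * G) = rtk2Kill v F * rtk2Kill v G := by
  have hF := rtk2_kill_add_X_mul_shift v F
  have hG := rtk2_kill_add_X_mul_shift v G
  have e : F * G = rtk2Kill v F * rtk2Kill v G +
      X v * (rtk2Kill v F * rtk2Shift v G + rtk2Shift v F * G) := by
    calc F * G = (rtk2Kill v F + X v * rtk2Shift v F) * G := by rw [hF]
      _ = rtk2Kill v F * G + X v * (rtk2Shift v F * G) := by ring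
      _ = rtk2Kill v F * (rtk2Kill v G + X v * rtk2Shift v G)
          + X v * (rtk2Shift v F * G) := by rw [hG]
      _ = _ := by ring
  rw [e, rtk2_kill_add_X_mul ((rtk2_free_kill v F).mul (rtk2_free_kill v G))]

theorem rtk2_kill_add (v : σ) (F G : MvPowerSeries σ R) :
    rtk2Kill v (F + G) = rtk2Kill v F + rtk2Kill v G := by
  unfold rtk2Kill
  rw [map_add]
  ring

theorem rtk2_kill_sub (v : σ) (F G : MvPowerSeries σ R) :
    rtk2Kill v (F - G) = rtk2Kill v F - rtk2Kill v G := by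
  unfold rtk2Kill
  rw [map_sub]
  ring

theorem rtk2_kill_X (v : σ) : rtk2Kill v (X v : MvPowerSeries σ R) = 0 := by
  have := rtk2_kill_X_mul (R := R) v 1
  rwa [mul_one] at this

variable {v : σ} {𝔟 : Ideal (MvPowerSeries σ R)}

theorem rtk2_mem_sup_X_iff (hgen : Rtk2FreeGen {v} 𝔟) (F : MvPowerSeries σ R) :
    F ∈ 𝔟 ⊔ Ideal.span {X v} ↔ rtk2Kill v F ∈ 𝔟 := by
  constructor
  · intro h
    obtain ⟨β, hβ, γ, hγ, rfl⟩ := Submodule.mem_sup.mp h
    obtain ⟨g, rfl⟩ := Ideal.mem_span_singleton'.mp hγ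
    have : rtk2Kill v (β + g * X v) = rtk2Kill v β := by
      rw [rtk2_kill_add, mul_comm g, rtk2_kill_X_mul, add_zero]
    rw [this]
    exact hgen.kill_mem (by simp) hβ
  · intro h
    rw [← rtk2_kill_add_X_mul_shift v F]
    exact Ideal.add_mem _ (Ideal.mem_sup_left h)
      (Ideal.mem_sup_right (Ideal.mul_mem_right _ _ (Ideal.mem_span_singleton_self _)))

/-- Adjoining a free variable to a prime ideal. -/
theorem rtk2_isPrime_sup_X [h𝔟 : 𝔟.IsPrime] (hgen : Rtk2FreeGen {v} 𝔟) :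
    (𝔟 ⊔ Ideal.span {X v}).IsPrime := by
  refine Ideal.isPrime_iff.mpr ⟨?_, ?_⟩
  · intro htop
    have h1 : (1 : MvPowerSeries σ R) ∈ 𝔟 ⊔ Ideal.span {X v} := by rw [htop]; trivial
    rw [rtk2_mem_sup_X_iff hgen, (rtk2_free_one {v}).kill_eq] at h1
    exact h𝔟.ne_top ((Ideal.eq_top_iff_one _).mpr h1)
  · intro x y hxy
    rw [rtk2_mem_sup_X_iff hgen] at hxy ⊢
    rw [rtk2_mem_sup_X_iff hgen]
    rw [rtk2_kill_mul] at hxy
    exact h𝔟.mem_or_mem hxy

/-- `X a, X b, X c` is a regular sequence modulo `𝔞' + (a² + bc − d)`, for a prime `𝔞'` generated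
by power series not involving `a, b, c` and `d ∉ 𝔞'`. -/
theorem rtk2_regular_abc {a b c : σ} (hab : a ≠ b) (hac : a ≠ c) (hbc : b ≠ c)
    {𝔞' : Ideal (MvPowerSeries σ R)} [h𝔞' : 𝔞'.IsPrime] (hgen : Rtk2FreeGen {a, b, c} 𝔞')
    {d : R} (hd : (C d : MvPowerSeries σ R) ∉ 𝔞') (f : MvPowerSeries σ R)
    (hf : f = X a ^ 2 + X b * X c - C d) :
    (∀ F, X a * F ∈ 𝔞' ⊔ Ideal.span {f} → F ∈ 𝔞' ⊔ Ideal.span {f}) ∧
    (∀ F, X b * F ∈ 𝔞' ⊔ Ideal.span {f} ⊔ Ideal.span {X a} →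
      F ∈ 𝔞' ⊔ Ideal.span {f} ⊔ Ideal.span {X a}) ∧
    (∀ F, X c * F ∈ 𝔞' ⊔ Ideal.span {f} ⊔ Ideal.span {X a, X b} →
      F ∈ 𝔞' ⊔ Ideal.span {f} ⊔ Ideal.span {X a, X b}) := by
  have hga : Rtk2FreeGen {a} 𝔞' := hgen.mono (by simp)
  have hgb : Rtk2FreeGen {b} 𝔞' := hgen.mono (by simp)
  have hgc : Rtk2FreeGen {c} 𝔞' := hgen.mono (by simp)
  have hXab : Rtk2Free {b} (X a : MvPowerSeries σ R) := rtk2_free_X (by simpa using hab)
  have hXac : Rtk2Free {c} (X a : MvPowerSeries σ R) := rtk2_free_X (by simpa using hac)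
  have hXbc : Rtk2Free {c} (X b : MvPowerSeries σ R) := rtk2_free_X (by simpa using hbc)
  set 𝔭₁ := 𝔞' ⊔ Ideal.span {(X a : MvPowerSeries σ R)} with h𝔭₁
  have hp1 : 𝔭₁.IsPrime := rtk2_isPrime_sup_X hga
  have hg1b : Rtk2FreeGen {b} 𝔭₁ := hgb.sup (rtk2_freeGen_span_singleton hXab)
  have hg1c : Rtk2FreeGen {c} 𝔭₁ := hgc.sup (rtk2_freeGen_span_singleton hXac)
  set 𝔭₂ := 𝔭₁ ⊔ Ideal.span {(X b : MvPowerSeries σ R)} with h𝔭₂
  have hp2 : 𝔭₂.IsPrime := rtk2_isPrime_sup_X hg1b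
  have hg2c : Rtk2FreeGen {c} 𝔭₂ := hg1c.sup (rtk2_freeGen_span_singleton hXbc)
  set 𝔭₃ := 𝔭₂ ⊔ Ideal.span {(X c : MvPowerSeries σ R)} with h𝔭₃
  have hp3 : 𝔭₃.IsPrime := rtk2_isPrime_sup_X hg2c
  have hf3 : f ∉ 𝔭₃ := by
    intro hmem
    rw [h𝔭₃, rtk2_mem_sup_X_iff hg2c] at hmem
    have e1 : f = (X a ^ 2 - C d) + X c * X b := by rw [hf]; ring
    have hfree1 : Rtk2Free {c} (X a ^ 2 - C d : MvPowerSeries σ R) :=
      (hXac.pow 2).sub (rtk2_free_C _ d)
    rw [e1, rtk2_kill_add_X_mul hfree1, h𝔭₂, rtk2_mem_sup_X_iff hg1b] at hmem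
    have hfree2 : Rtk2Free {b} (X a ^ 2 - C d : MvPowerSeries σ R) :=
      (hXab.pow 2).sub (rtk2_free_C _ d)
    rw [hfree2.kill_eq, h𝔭₁, rtk2_mem_sup_X_iff hga] at hmem
    have e2 : (X a ^ 2 - C d : MvPowerSeries σ R) = (-C d) + X a * X a := by ring
    rw [e2, rtk2_kill_add_X_mul (rtk2_free_C _ d).neg] at hmem
    exact hd (by simpa using neg_mem hmem)
  have hf2 : f ∉ 𝔭₂ := fun h => hf3 (Ideal.mem_sup_left h)
  have hf1 : f ∉ 𝔭₁ := fun h => hf2 (Ideal.mem_sup_left h)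
  have e₁ : 𝔞' ⊔ Ideal.span {f} ⊔ Ideal.span {(X a : MvPowerSeries σ R)} =
      𝔭₁ ⊔ Ideal.span {f} := by
    rw [h𝔭₁]; exact sup_right_comm _ _ _
  have e₂ : 𝔞' ⊔ Ideal.span {f} ⊔ Ideal.span {(X a : MvPowerSeries σ R), X b} =
      𝔭₂ ⊔ Ideal.span {f} := by
    rw [h𝔭₂, h𝔭₁, Ideal.span_insert, ← sup_assoc]
    rw [sup_right_comm 𝔞' (Ideal.span {f}) (Ideal.span {X a}),
      sup_right_comm (𝔞' ⊔ Ideal.span {X a}) (Ideal.span {f}) (Ideal.span {X b})]
  refine ⟨?_, ?_, ?_⟩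
  · exact rtk2_nzd_sup hp1 hf1 fun F hF => hga.of_X_mul_mem (by simp) hF
  · rw [e₁]
    exact rtk2_nzd_sup hp2 hf2 fun F hF => hg1b.of_X_mul_mem (by simp) hF
  · rw [e₂]
    exact rtk2_nzd_sup hp3 hf3 fun F hF => hg2c.of_X_mul_mem (by simp) hF

end PowerSeries

section Coeff

variable {σ : Type*} {O : Type*} [CommRing O]

theorem rtk2_span_C_eq_ker (lam : O) :
    Ideal.span {(C lam : MvPowerSeries σ O)} =
      RingHom.ker (MvPowerSeries.map (σ := σ) (Ideal.Quotient.mk (Ideal.span {lam}))) := by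
  apply le_antisymm
  · rw [Ideal.span_le]
    intro F hF
    rw [Set.mem_singleton_iff] at hF
    subst hF
    rw [SetLike.mem_coe, RingHom.mem_ker, map_C]
    have : Ideal.Quotient.mk (Ideal.span {lam}) lam = 0 :=
      Ideal.Quotient.eq_zero_iff_mem.mpr (Ideal.mem_span_singleton_self lam)
    rw [this, map_zero]
  · intro F hF
    rw [RingHom.mem_ker] at hF
    have h : ∀ m, ∃ g, coeff m F = lam * g := by
      intro m
      have := congrArg (coeff m) hF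
      rw [coeff_map, map_zero, Ideal.Quotient.eq_zero_iff_mem, Ideal.mem_span_singleton'] at this
      obtain ⟨g, hg⟩ := this
      exact ⟨g, by rw [← hg, mul_comm]⟩
    choose G hG using h
    rw [Ideal.mem_span_singleton']
    refine ⟨(fun m => G m : MvPowerSeries σ O), ?_⟩
    ext m
    rw [mul_comm, coeff_C_mul]
    exact (hG m).symm

/-- `(C λ)` is a prime ideal of the power series ring for a prime element `λ`. -/
theorem rtk2_span_C_isPrime [IsDomain O] {lam : O} (hlam : Prime lam) :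
    (Ideal.span {(C lam : MvPowerSeries σ O)}).IsPrime := by
  rw [rtk2_span_C_eq_ker]
  haveI : (Ideal.span {lam}).IsPrime := (Ideal.span_singleton_prime hlam.ne_zero).mpr hlam
  haveI : IsDomain (O ⧸ Ideal.span {lam}) := Ideal.Quotient.isDomain _
  haveI : IsDomain (MvPowerSeries σ (O ⧸ Ideal.span {lam})) := NoZeroDivisors.to_isDomain _
  exact RingHom.ker_isPrime _

/-- `C λ` lies in the Jacobson radical for a nonunit `λ` of a local ring. -/
theorem rtk2_span_C_le_jacobson [IsLocalRing O] {lam : O} (hlam : ¬ IsUnit lam) :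
    Ideal.span {(C lam : MvPowerSeries σ O)} ≤ Ideal.jacobson ⊥ := by
  refine le_trans ?_ (IsLocalRing.maximalIdeal_le_jacobson ⊥)
  rw [Ideal.span_le]
  intro F hF
  rw [Set.mem_singleton_iff] at hF
  subst hF
  rw [SetLike.mem_coe, IsLocalRing.mem_maximalIdeal, mem_nonunits_iff,
    MvPowerSeries.isUnit_iff_constantCoeff, constantCoeff_C]
  exact hlam

end Coeff

end Fermat.Agent.RT.K2
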