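import Fermat.Agent.RT.K2.FreeGen

/-!
# RT-K2, step T1: adjoining the quadric `a² + bc`

If `𝔟` is a prime ideal of `MvPowerSeries σ R` generated by finitely many power series which do
not involve the three (distinct) variables `a, b, c`, then `𝔟 + (a² + bc)` is prime.

Proof: graded reduction (weights `1` on `a, b, c`); division of a homogeneous element by the
quadric (`rtk2_t1_div`); uniqueness of the remainder (`rtk2_t1_unique`); norm trick and parity
in `b` (`rtk2_t1_norm`).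
-/

set_option autoImplicit false

namespace Fermat.Agent.RT.K2

open MvPowerSeries Finsupp

variable {σ : Type*} {R : Type*} [CommRing R]

/-- The quadric `a² + bc`. -/
noncomputable def rtk2Quad (a b c : σ) : MvPowerSeries σ R := X a ^ 2 + X b * X c

section

variable {a b c : σ} {𝔟 : Ideal (MvPowerSeries σ R)}

theorem rtk2_free_bc (hab : a ≠ b) (hac : a ≠ c) :
    Rtk2Free {a} (X b * X c : MvPowerSeries σ R) :=
  (rtk2_free_X (by simpa using hab.symm)).mul (rtk2_free_X (by simpa using hac.symm))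

/-- Uniqueness of the remainder of the division by the quadric, modulo `𝔟`. -/
theorem rtk2_t1_unique (hab : a ≠ b) (hac : a ≠ c) (hgen : Rtk2FreeGen {a, b, c} 𝔟)
    {p q : MvPowerSeries σ R} (hp : Rtk2Free {a} p) (hq : Rtk2Free {a} q)
    (h : p + X a * q ∈ 𝔟 ⊔ Ideal.span {rtk2Quad a b c}) : p ∈ 𝔟 ∧ q ∈ 𝔟 := by
  have haV : a ∈ ({a, b, c} : Set σ) := by simp
  have hbV : b ∈ ({a, b, c} : Set σ) := by simp
  obtain ⟨β, hβ, y, hy, hsum⟩ := Submodule.mem_sup.mp h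
  obtain ⟨hh, rfl⟩ := Ideal.mem_span_singleton'.mp hy
  have hfbc := rtk2_free_bc (R := R) hab hac
  -- the operator `T = shift_a²`
  let T : MvPowerSeries σ R → MvPowerSeries σ R := fun F => rtk2Shift a (rtk2Shift a F)
  have hT𝔟 : ∀ F, F ∈ 𝔟 → T F ∈ 𝔟 := fun F hF => hgen.shift_mem haV (hgen.shift_mem haV hF)
  have hTadd : ∀ F G, T (F + G) = T F + T G := fun F G => by simp only [T, map_add]
  have hTbc : ∀ F, T (X b * X c * F) = X b * X c * T F := fun F => by
    simp only [T]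
    rw [rtk2_shift_mul_free hfbc, rtk2_shift_mul_free hfbc]
  have hTquad : ∀ F, T (F * rtk2Quad a b c) = F + X b * X c * T F := fun F => by
    have : F * rtk2Quad a b c = X a * (X a * F) + X b * X c * F := by
      unfold rtk2Quad; ring
    rw [this, hTadd, hTbc]
    simp only [T]
    rw [rtk2_shift_X_mul, rtk2_shift_X_mul]
  have hT0 : T (p + X a * q) = 0 := by
    simp only [T]
    rw [map_add, rtk2_shift_X_mul, hp.shift_eq_zero, zero_add, hq.shift_eq_zero]
  have hh0 : hh + X b * X c * T hh ∈ 𝔟 := by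
    have h1 : T (β + hh * rtk2Quad a b c) = 0 := by rw [hsum, hT0]
    rw [hTadd, hTquad] at h1
    have h2 : hh + X b * X c * T hh = -(T β) := by
      rw [eq_neg_iff_add_eq_zero, add_comm]; exact h1
    rw [h2]
    exact neg_mem (hT𝔟 _ hβ)
  have hseq : ∀ n : ℕ, T^[n] hh + X b * X c * T^[n + 1] hh ∈ 𝔟 := by
    intro n
    induction n with
    | zero => simpa using hh0
    | succ n ih =>
      have := hT𝔟 _ ih
      rw [hTadd, hTbc] at this
      simp only [Function.iterate_succ_apply'] at this ⊢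
      exact this
  have hpow : ∀ n : ℕ, hh - (-(X b * X c)) ^ n * T^[n] hh ∈ 𝔟 := by
    intro n
    induction n with
    | zero => simp
    | succ n ih =>
      have e : hh - (-(X b * X c)) ^ (n + 1) * T^[n + 1] hh =
          (hh - (-(X b * X c)) ^ n * T^[n] hh) +
            (-(X b * X c)) ^ n * (T^[n] hh + X b * X c * T^[n + 1] hh) := by ring
      rw [e]
      exact Ideal.add_mem _ ih (Ideal.mul_mem_left _ _ (hseq n))
  have hhmem : hh ∈ 𝔟 := by
    refine hgen.mem_of_forall_pow hbV fun n => ⟨(-X c) ^ n * T^[n] hh, ?_⟩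
    have e : hh - X b ^ n * ((-X c) ^ n * T^[n] hh) = hh - (-(X b * X c)) ^ n * T^[n] hh := by
      rw [← mul_assoc, ← mul_pow]; congr 2; ring_nf
    rw [e]
    exact hpow n
  have hmem : p + X a * q ∈ 𝔟 := by
    rw [← hsum]
    exact Ideal.add_mem _ hβ (Ideal.mul_mem_right _ _ hhmem)
  have hqm : q ∈ 𝔟 := by
    have := hgen.shift_mem haV hmem
    rwa [map_add, rtk2_shift_X_mul, hp.shift_eq_zero, zero_add] at this
  refine ⟨?_, hqm⟩
  have := Ideal.sub_mem _ hmem (Ideal.mul_mem_left _ (X a) hqm)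
  simpa using this

/-- One step of the parity descent. -/
theorem rtk2_t1_norm_step [h𝔟 : 𝔟.IsPrime] (hbc : b ≠ c) (hgen : Rtk2FreeGen {a, b, c} 𝔟)
    {p q : MvPowerSeries σ R} (h : p ^ 2 + X b * X c * q ^ 2 ∈ 𝔟) :
    rtk2Kill b p ∈ 𝔟 ∧ rtk2Kill b q ∈ 𝔟 ∧
      (rtk2Shift b p) ^ 2 + X b * X c * (rtk2Shift b q) ^ 2 ∈ 𝔟 := by
  have hbV : b ∈ ({a, b, c} : Set σ) := by simp
  have hcV : c ∈ ({a, b, c} : Set σ) := by simp
  set p₀ := rtk2Kill b p with hp₀
  set p₁ := rtk2Shift b p with hp₁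
  set q₀ := rtk2Kill b q with hq₀
  set q₁ := rtk2Shift b q with hq₁
  have hp : p = p₀ + X b * p₁ := (rtk2_kill_add_X_mul_shift b p).symm
  have hq : q = q₀ + X b * q₁ := (rtk2_kill_add_X_mul_shift b q).symm
  have hfp₀ : Rtk2Free {b} p₀ := rtk2_free_kill b p
  have hfq₀ : Rtk2Free {b} q₀ := rtk2_free_kill b q
  have hfc : Rtk2Free {b} (X c : MvPowerSeries σ R) := rtk2_free_X (by simpa using hbc.symm)
  have hkill : ∀ A B : MvPowerSeries σ R, Rtk2Free {b} A → rtk2Kill b (A + X b * B) = A := by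
    intro A B hA
    unfold rtk2Kill
    rw [map_add, rtk2_shift_X_mul, hA.shift_eq_zero]
    ring
  -- first: `p₀² ∈ 𝔟`
  have h1 : p₀ ^ 2 ∈ 𝔟 := by
    have := hgen.kill_mem hbV h
    have e : p ^ 2 + X b * X c * q ^ 2 =
        p₀ ^ 2 + X b * (2 * p₀ * p₁ + X b * p₁ ^ 2 + X c * q ^ 2) := by
      rw [hp]; ring
    rwa [e, hkill _ _ (hfp₀.pow 2)] at this
  have hp₀m : p₀ ∈ 𝔟 := h𝔟.mem_of_pow_mem 2 h1
  -- second: `X b p₁² + X c q² ∈ 𝔟`
  have h2 : X b * p₁ ^ 2 + X c * q ^ 2 ∈ 𝔟 := by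
    apply hgen.of_X_mul_mem hbV
    have e : X b * (X b * p₁ ^ 2 + X c * q ^ 2) =
        (p ^ 2 + X b * X c * q ^ 2) - p₀ * (p₀ + 2 * X b * p₁) := by
      rw [hp]; ring
    rw [e]
    exact Ideal.sub_mem _ h (Ideal.mul_mem_right _ _ hp₀m)
  -- third: `X c q₀² ∈ 𝔟`
  have h3 : X c * q₀ ^ 2 ∈ 𝔟 := by
    have := hgen.kill_mem hbV h2
    have e : X b * p₁ ^ 2 + X c * q ^ 2 =
        X c * q₀ ^ 2 + X b * (p₁ ^ 2 + X c * (2 * q₀ * q₁ + X b * q₁ ^ 2)) := by
      rw [hq]; ring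
    rwa [e, hkill _ _ (hfc.mul (hfq₀.pow 2))] at this
  have hq₀m : q₀ ∈ 𝔟 := h𝔟.mem_of_pow_mem 2 (hgen.of_X_mul_mem hcV h3)
  refine ⟨hp₀m, hq₀m, ?_⟩
  apply hgen.of_X_mul_mem hbV
  have e : X b * (p₁ ^ 2 + X b * X c * q₁ ^ 2) =
      (X b * p₁ ^ 2 + X c * q ^ 2) - X c * q₀ * (q₀ + 2 * X b * q₁) := by
    rw [hq]; ring
  rw [e]
  exact Ideal.sub_mem _ h2 (Ideal.mul_mem_right _ _ (Ideal.mul_mem_left _ _ hq₀m))

/-- The norm form `p² + bc q²` is anisotropic modulo `𝔟`. -/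
theorem rtk2_t1_norm [h𝔟 : 𝔟.IsPrime] (hbc : b ≠ c) (hgen : Rtk2FreeGen {a, b, c} 𝔟)
    {p q : MvPowerSeries σ R} (h : p ^ 2 + X b * X c * q ^ 2 ∈ 𝔟) : p ∈ 𝔟 ∧ q ∈ 𝔟 := by
  have hbV : b ∈ ({a, b, c} : Set σ) := by simp
  have hit : ∀ n : ℕ, ((rtk2Shift b)^[n] p) ^ 2 + X b * X c * ((rtk2Shift b)^[n] q) ^ 2 ∈ 𝔟 := by
    intro n
    induction n with
    | zero => simpa using h
    | succ n ih =>
      rw [Function.iterate_succ_apply', Function.iterate_succ_apply']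
      exact (rtk2_t1_norm_step hbc hgen ih).2.2
  have hk : ∀ (r : MvPowerSeries σ R), (∀ n : ℕ, rtk2Kill b ((rtk2Shift b)^[n] r) ∈ 𝔟) →
      r ∈ 𝔟 := by
    intro r hr
    refine hgen.mem_of_forall_pow hbV fun n => ⟨(rtk2Shift b)^[n] r, ?_⟩
    induction n with
    | zero => simp
    | succ n ih =>
      have e : r - X b ^ (n + 1) * (rtk2Shift b)^[n + 1] r =
          (r - X b ^ n * (rtk2Shift b)^[n] r) + X b ^ n * rtk2Kill b ((rtk2Shift b)^[n] r) := by
        rw [Function.iterate_succ_apply']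
        unfold rtk2Kill
        ring
      rw [e]
      exact Ideal.add_mem _ ih (Ideal.mul_mem_left _ _ (hr n))
  exact ⟨hk p fun n => (rtk2_t1_norm_step hbc hgen (hit n)).1,
    hk q fun n => (rtk2_t1_norm_step hbc hgen (hit n)).2.1⟩

/-- Division of a weighted homogeneous element by the quadric. -/
theorem rtk2_t1_div (hab : a ≠ b) (hac : a ≠ c) {w : σ → ℕ} (hwa : w a = 1) :
    ∀ (d : ℕ) (u : MvPowerSeries σ R), Rtk2WH w u d →
      ∃ u₀ u₁ : MvPowerSeries σ R, Rtk2Free {a} u₀ ∧ Rtk2Free {a} u₁ ∧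
        u - (u₀ + X a * u₁) ∈ Ideal.span {rtk2Quad a b c} := by
  intro d
  induction d using Nat.strong_induction_on with
  | _ d ih =>
    intro u hu
    set s := rtk2Shift a u with hs
    set t := rtk2Shift a s with ht
    have hsW : Rtk2WH w s (d - 1) := by have := hu.shift a; rwa [hwa] at this
    have htW : Rtk2WH w t (d - 1 - 1) := by have := hsW.shift a; rwa [hwa] at this
    have hu' : u = rtk2Kill a u + X a * rtk2Kill a s + X a ^ 2 * t := by
      have h1 := rtk2_kill_add_X_mul_shift a u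
      have h2 := rtk2_kill_add_X_mul_shift a s
      calc u = rtk2Kill a u + X a * s := h1.symm
        _ = rtk2Kill a u + X a * (rtk2Kill a s + X a * t) := by rw [h2]
        _ = _ := by ring
    by_cases hd : d < 2
    · have ht0 : t = 0 := by
        by_cases hd0 : d = 0
        · have : s = 0 := hu.shift_eq_zero (by omega)
          rw [ht, this, map_zero]
        · exact hsW.shift_eq_zero (by omega)
      refine ⟨rtk2Kill a u, rtk2Kill a s, rtk2_free_kill a u, rtk2_free_kill a s, ?_⟩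
      have : u - (rtk2Kill a u + X a * rtk2Kill a s) = 0 := by
        rw [ht0, mul_zero, add_zero] at hu'
        rw [← hu', sub_self]
      rw [this]
      exact Ideal.zero_mem _
    · obtain ⟨t₀, t₁, ht₀, ht₁, hmem⟩ := ih (d - 1 - 1) (by omega) t htW
      have hfbc := rtk2_free_bc (R := R) hab hac
      refine ⟨rtk2Kill a u - X b * X c * t₀, rtk2Kill a s - X b * X c * t₁,
        (rtk2_free_kill a u).sub (hfbc.mul ht₀), (rtk2_free_kill a s).sub (hfbc.mul ht₁), ?_⟩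
      have e : u - (rtk2Kill a u - X b * X c * t₀ + X a * (rtk2Kill a s - X b * X c * t₁)) =
          t * rtk2Quad a b c - X b * X c * (t - (t₀ + X a * t₁)) := by
        have : u - (rtk2Kill a u + X a * rtk2Kill a s) = X a ^ 2 * t := by
          rw [sub_eq_iff_eq_add]; rw [add_comm]; exact hu'
        unfold rtk2Quad
        linear_combination this
      rw [e]
      exact Ideal.sub_mem _ (Ideal.mul_mem_left _ _ (Ideal.mem_span_singleton_self _))
        (Ideal.mul_mem_left _ _ hmem)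

/-- **T1**: if the prime `𝔟` is generated by finitely many power series not involving the
distinct variables `a, b, c`, then `𝔟 + (a² + bc)` is prime. -/
theorem rtk2_t1 (hab : a ≠ b) (hac : a ≠ c) (hbc : b ≠ c) [h𝔟 : 𝔟.IsPrime]
    (hgen : Rtk2FreeGen {a, b, c} 𝔟) : (𝔟 ⊔ Ideal.span {rtk2Quad a b c}).IsPrime := by
  classical
  have haV : a ∈ ({a, b, c} : Set σ) := by simp
  have hbV : b ∈ ({a, b, c} : Set σ) := by simp
  have hcV : c ∈ ({a, b, c} : Set σ) := by simp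
  let w : σ → ℕ := fun s => if s ∈ ({a, b, c} : Set σ) then 1 else 0
  have hw : ∀ s, s ∉ ({a, b, c} : Set σ) → w s = 0 := fun s hs => if_neg hs
  have hwa : w a = 1 := if_pos haV
  have hwb : w b = 1 := if_pos hbV
  have hwc : w c = 1 := if_pos hcV
  have hquadW : Rtk2WH w (rtk2Quad a b c : MvPowerSeries σ R) 2 := by
    unfold rtk2Quad
    have h1 := (rtk2_WH_X (R := R) w a).pow 2
    have h2 := (rtk2_WH_X (R := R) w b).mul (rtk2_WH_X (R := R) w c)
    rw [hwa] at h1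
    rw [hwb, hwc] at h2
    exact h1.add h2
  obtain ⟨κ, iκ, γ, h𝔟eq, hγ⟩ := hgen
  have hgen : Rtk2FreeGen {a, b, c} 𝔟 := ⟨κ, iκ, γ, h𝔟eq, hγ⟩
  set Q : Ideal (MvPowerSeries σ R) := Ideal.span {rtk2Quad a b c} with hQ
  have hspan : 𝔟 ⊔ Q = Ideal.span (Set.range (Sum.elim γ (fun _ : Unit => rtk2Quad a b c))) := by
    rw [Set.Sum.elim_range, Ideal.span_union, ← h𝔟eq]
    simp [hQ]
  have hWH : ∀ k : κ ⊕ Unit, Rtk2WH w (Sum.elim γ (fun _ : Unit => rtk2Quad a b c) k)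
      (Sum.elim (fun _ => 0) (fun _ => 2) k) := by
    rintro (k | k)
    · exact (hγ k).wh_zero hw
    · exact hquadW
  refine rtk2_isPrime_of_homogeneous (w := w) _ ?_ ?_ ?_ ?_
  · -- proper
    intro htop
    have h1 : (1 : MvPowerSeries σ R) ∈ 𝔟 ⊔ Q := by rw [htop]; trivial
    obtain ⟨β, hβ, y, hy, hsum⟩ := Submodule.mem_sup.mp h1
    obtain ⟨hh, rfl⟩ := Ideal.mem_span_singleton'.mp hy
    have := congrArg (rtk2Comp w 0) hsum
    rw [map_add, rtk2_comp_mul_WH_lt hquadW hh (by omega), add_zero,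
      (rtk2_WH_one w).comp_eq] at this
    exact h𝔟.ne_top ((Ideal.eq_top_iff_one _).mpr (this ▸ hgen.comp_mem hw hβ 0))
  · intro F hF d
    rw [hspan] at hF ⊢
    exact rtk2_comp_mem_span _ _ hWH hF d
  · intro F hF
    rw [hspan] at hF ⊢
    exact rtk2_mem_span_of_comp _ _ hWH hF
  · intro u v d e hu hv huv
    obtain ⟨u₀, u₁, hu₀, hu₁, hudiv⟩ := rtk2_t1_div (b := b) (c := c) hab hac hwa d u hu
    obtain ⟨v₀, v₁, hv₀, hv₁, hvdiv⟩ := rtk2_t1_div (b := b) (c := c) hab hac hwa e v hv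
    have hfbc := rtk2_free_bc (R := R) hab hac
    have hQle : Q ≤ 𝔟 ⊔ Q := le_sup_right
    have h𝔟le : 𝔟 ≤ 𝔟 ⊔ Q := le_sup_left
    -- the product of the remainders
    have hPQ : (u₀ * v₀ - X b * X c * (u₁ * v₁)) + X a * (u₀ * v₁ + u₁ * v₀) ∈ 𝔟 ⊔ Q := by
      have e1 : (u₀ * v₀ - X b * X c * (u₁ * v₁)) + X a * (u₀ * v₁ + u₁ * v₀) =
          u * v - (u - (u₀ + X a * u₁)) * v - (u₀ + X a * u₁) * (v - (v₀ + X a * v₁))
            - (u₁ * v₁) * rtk2Quad a b c := by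
        unfold rtk2Quad; ring
      rw [e1]
      refine Ideal.sub_mem _ (Ideal.sub_mem _ (Ideal.sub_mem _ huv ?_) ?_) ?_
      · exact Ideal.mul_mem_right _ _ (hQle hudiv)
      · exact Ideal.mul_mem_left _ _ (hQle hvdiv)
      · exact Ideal.mul_mem_left _ _ (hQle (Ideal.mem_span_singleton_self _))
    obtain ⟨hP, hQ0⟩ := rtk2_t1_unique hab hac hgen
      ((hu₀.mul hv₀).sub (hfbc.mul (hu₁.mul hv₁))) ((hu₀.mul hv₁).add (hu₁.mul hv₀)) hPQ
    have hkey : u₁ * (v₀ ^ 2 + X b * X c * v₁ ^ 2) ∈ 𝔟 := by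
      have e2 : u₁ * (v₀ ^ 2 + X b * X c * v₁ ^ 2) =
          v₀ * (u₀ * v₁ + u₁ * v₀) - v₁ * (u₀ * v₀ - X b * X c * (u₁ * v₁)) := by ring
      rw [e2]
      exact Ideal.sub_mem _ (Ideal.mul_mem_left _ _ hQ0) (Ideal.mul_mem_left _ _ hP)
    have hu_of : u₀ ∈ 𝔟 → u₁ ∈ 𝔟 → u ∈ 𝔟 ⊔ Q := by
      intro h0 h1
      have : u = (u - (u₀ + X a * u₁)) + (u₀ + X a * u₁) := by ring
      rw [this]
      exact Ideal.add_mem _ (hQle hudiv)
        (h𝔟le (Ideal.add_mem _ h0 (Ideal.mul_mem_left _ _ h1)))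
    have hv_of : v₀ ∈ 𝔟 → v₁ ∈ 𝔟 → v ∈ 𝔟 ⊔ Q := by
      intro h0 h1
      have : v = (v - (v₀ + X a * v₁)) + (v₀ + X a * v₁) := by ring
      rw [this]
      exact Ideal.add_mem _ (hQle hvdiv)
        (h𝔟le (Ideal.add_mem _ h0 (Ideal.mul_mem_left _ _ h1)))
    rcases h𝔟.mem_or_mem hkey with h1 | h1
    · -- `u₁ ∈ 𝔟`
      have h2 : u₀ * v₀ ∈ 𝔟 := by
        have := Ideal.add_mem _ hP (Ideal.mul_mem_left _ (X b * X c)
          (Ideal.mul_mem_right v₁ _ h1))
        simpa using this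
      have h3 : u₀ * v₁ ∈ 𝔟 := by
        have := Ideal.sub_mem _ hQ0 (Ideal.mul_mem_right v₀ _ h1)
        simpa using this
      rcases h𝔟.mem_or_mem h2 with h4 | h4
      · exact Or.inl (hu_of h4 h1)
      · rcases h𝔟.mem_or_mem h3 with h5 | h5
        · exact Or.inl (hu_of h5 h1)
        · exact Or.inr (hv_of h4 h5)
    · obtain ⟨h4, h5⟩ := rtk2_t1_norm hbc hgen h1
      exact Or.inr (hv_of h4 h5)

end

end Fermat.Agent.RT.K2
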