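import Fermat.Agent.RT.K2.Cramer
import Fermat.Agent.RT.K2.T1
import Fermat.Agent.RT.K2.A1
import Fermat.Agent.RT.K2.Prime

/-!
# RT-K2: the type-`χ` local ring `R^χ_∞` is a domain

`rtk2_Ichi_isPrime` : for a Noetherian local domain `O`, a prime element `λ` and
`δ_i = λ^(k_i + 1)·unit`, the ideal `rtk2Ichi τ δ = (a_i² + b_i c_i − δ_i², 2 × 2 minors)` of
`O[[a_i, b_i, c_i, X_i, Y_i, Z_i, x_t]]` is prime; `rtk2_Rchi_isDomain`.

Order of the construction: first all the quadrics `f_i` (reduction modulo `λ`, step T1, and the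
`λ`-adic lifting `rtk2_isPrime_of_sup_span`), then the minors, one prime `i` at a time (step A1,
regular sequence `a_i, b_i, c_i` by `rtk2_regular_abc`).
-/

set_option autoImplicit false

namespace Fermat.Agent.RT.K2

open MvPowerSeries Finsupp

variable {O : Type*} [CommRing O] {ι τ : Type*}

theorem rtk2ix_ne_of_ne {i j : ι} (h : i ≠ j) (k l : Fin 6) :
    (rtk2ix i k : Rtk2Var ι τ) ≠ rtk2ix j l := by
  intro e
  unfold rtk2ix at e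
  exact h (Prod.mk.inj (Sum.inl_injective e)).1

theorem rtk2ix_ne_of_ne' (i : ι) {k l : Fin 6} (h : k ≠ l) :
    (rtk2ix i k : Rtk2Var ι τ) ≠ rtk2ix i l := by
  intro e
  unfold rtk2ix at e
  exact h (Prod.mk.inj (Sum.inl_injective e)).2

/-! ## the ideals -/

variable (τ) in
/-- The ideal `(f_i : i ∈ S)`. -/
noncomputable def rtk2IE (δ : ι → O) (S : Finset ι) : Ideal (Rtk2P O ι τ) :=
  ⨆ i ∈ S, Ideal.span {rtk2f δ i}

variable (O τ) in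
/-- The ideal `(g_i : i ∈ S)`. -/
noncomputable def rtk2IG (S : Finset ι) : Ideal (Rtk2P O ι τ) :=
  ⨆ i ∈ S, Ideal.span {rtk2g i}

variable (O τ) in
/-- The ideal of the minors of the primes in `S`. -/
noncomputable def rtk2IM (S : Finset ι) : Ideal (Rtk2P O ι τ) :=
  ⨆ i ∈ S, Ideal.span {rtk2m1 i, rtk2m2 i, rtk2m3 i}

section Free

variable {V : Set (Rtk2Var ι τ)}

theorem rtk2_free_g {i : ι} (h0 : rtk2ix i 0 ∉ V) (h1 : rtk2ix i 1 ∉ V) (h2 : rtk2ix i 2 ∉ V) :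
    Rtk2Free V (rtk2g i : Rtk2P O ι τ) := by
  unfold rtk2g rtk2a rtk2b rtk2c
  exact ((rtk2_free_X h0).pow 2).add ((rtk2_free_X h1).mul (rtk2_free_X h2))

theorem rtk2_free_f (δ : ι → O) {i : ι} (h0 : rtk2ix i 0 ∉ V) (h1 : rtk2ix i 1 ∉ V)
    (h2 : rtk2ix i 2 ∉ V) : Rtk2Free V (rtk2f δ i : Rtk2P O ι τ) := by
  unfold rtk2f rtk2a rtk2b rtk2c
  exact (((rtk2_free_X h0).pow 2).add ((rtk2_free_X h1).mul (rtk2_free_X h2))).sub
    (rtk2_free_C _ _)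

theorem rtk2_free_m1 {i : ι} (h : ∀ k, rtk2ix i k ∉ V) :
    Rtk2Free V (rtk2m1 i : Rtk2P O ι τ) := by
  unfold rtk2m1 rtk2a rtk2b rtk2X rtk2Y
  exact ((rtk2_free_X (h _)).mul (rtk2_free_X (h _))).sub
    ((rtk2_free_X (h _)).mul (rtk2_free_X (h _)))

theorem rtk2_free_m2 {i : ι} (h : ∀ k, rtk2ix i k ∉ V) :
    Rtk2Free V (rtk2m2 i : Rtk2P O ι τ) := by
  unfold rtk2m2 rtk2a rtk2c rtk2X rtk2Z
  exact ((rtk2_free_X (h _)).mul (rtk2_free_X (h _))).sub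
    ((rtk2_free_X (h _)).mul (rtk2_free_X (h _)))

theorem rtk2_free_m3 {i : ι} (h : ∀ k, rtk2ix i k ∉ V) :
    Rtk2Free V (rtk2m3 i : Rtk2P O ι τ) := by
  unfold rtk2m3 rtk2b rtk2c rtk2Y rtk2Z
  exact ((rtk2_free_X (h _)).mul (rtk2_free_X (h _))).sub
    ((rtk2_free_X (h _)).mul (rtk2_free_X (h _)))

theorem rtk2_freeGen_IG (S : Finset ι)
    (h : ∀ i ∈ S, rtk2ix i 0 ∉ V ∧ rtk2ix i 1 ∉ V ∧ rtk2ix i 2 ∉ V) :
    Rtk2FreeGen V (rtk2IG O τ S) :=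
  rtk2_freeGen_iSup S _ fun i hi =>
    rtk2_freeGen_span_singleton (rtk2_free_g (h i hi).1 (h i hi).2.1 (h i hi).2.2)

theorem rtk2_freeGen_IE (δ : ι → O) (S : Finset ι)
    (h : ∀ i ∈ S, rtk2ix i 0 ∉ V ∧ rtk2ix i 1 ∉ V ∧ rtk2ix i 2 ∉ V) :
    Rtk2FreeGen V (rtk2IE τ δ S) :=
  rtk2_freeGen_iSup S _ fun i hi =>
    rtk2_freeGen_span_singleton (rtk2_free_f δ (h i hi).1 (h i hi).2.1 (h i hi).2.2)

theorem rtk2_freeGen_IM (S : Finset ι) (h : ∀ i ∈ S, ∀ k, rtk2ix i k ∉ V) :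
    Rtk2FreeGen V (rtk2IM O τ S) := by
  refine rtk2_freeGen_iSup S _ fun i hi => ?_
  rw [Ideal.span_insert]
  exact (rtk2_freeGen_span_singleton (rtk2_free_m1 (h i hi))).sup
    (rtk2_freeGen_span_pair (rtk2_free_m2 (h i hi)) (rtk2_free_m3 (h i hi)))

end Free

theorem rtk2_IE_insert [DecidableEq ι] (δ : ι → O) (i : ι) (S : Finset ι) :
    rtk2IE τ δ (insert i S) = rtk2IE τ δ S ⊔ Ideal.span {rtk2f δ i} := by
  unfold rtk2IE
  rw [Finset.iSup_insert, sup_comm]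

theorem rtk2_IG_insert [DecidableEq ι] (i : ι) (S : Finset ι) :
    rtk2IG O τ (insert i S) = rtk2IG O τ S ⊔ Ideal.span {rtk2g i} := by
  unfold rtk2IG
  rw [Finset.iSup_insert, sup_comm]

theorem rtk2_IM_insert [DecidableEq ι] (i : ι) (S : Finset ι) :
    rtk2IM O τ (insert i S) = rtk2IM O τ S ⊔ Ideal.span {rtk2m1 i, rtk2m2 i, rtk2m3 i} := by
  unfold rtk2IM
  rw [Finset.iSup_insert, sup_comm]

theorem rtk2_f_mem_IE (δ : ι → O) {S : Finset ι} {i : ι} (hi : i ∈ S) :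
    (rtk2f δ i : Rtk2P O ι τ) ∈ rtk2IE τ δ S :=
  (le_iSup₂ (f := fun i (_ : i ∈ S) => Ideal.span {(rtk2f δ i : Rtk2P O ι τ)}) i hi)
    (Ideal.mem_span_singleton_self _)

theorem rtk2_g_mem_IG {S : Finset ι} {i : ι} (hi : i ∈ S) :
    (rtk2g i : Rtk2P O ι τ) ∈ rtk2IG O τ S :=
  (le_iSup₂ (f := fun i (_ : i ∈ S) => Ideal.span {(rtk2g i : Rtk2P O ι τ)}) i hi)
    (Ideal.mem_span_singleton_self _)

theorem rtk2_f_eq (δ : ι → O) (i : ι) :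
    (rtk2f δ i : Rtk2P O ι τ) = rtk2g i - C (δ i ^ 2) := rfl

/-! ## the quadrics -/

section Quadrics

variable [IsDomain O] {lam : O}

/-- `(λ, g_i : i ∈ S)` is prime. -/
theorem rtk2_B_isPrime (hlam : Prime lam) (S : Finset ι) :
    (Ideal.span {(C lam : Rtk2P O ι τ)} ⊔ rtk2IG O τ S).IsPrime := by
  classical
  induction S using Finset.induction_on with
  | empty =>
    have : rtk2IG O τ (∅ : Finset ι) = ⊥ := by
      unfold rtk2IG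
      simp
    rw [this, sup_bot_eq]
    exact rtk2_span_C_isPrime hlam
  | insert i₀ S hi₀ ih =>
    have e : Ideal.span {(C lam : Rtk2P O ι τ)} ⊔ rtk2IG O τ (insert i₀ S) =
        (Ideal.span {(C lam : Rtk2P O ι τ)} ⊔ rtk2IG O τ S) ⊔
          Ideal.span {rtk2Quad (rtk2ix i₀ 0) (rtk2ix i₀ 1) (rtk2ix i₀ 2)} := by
      rw [rtk2_IG_insert, ← sup_assoc]
      rfl
    rw [e]
    haveI := ih
    refine rtk2_t1 (rtk2ix_ne_of_ne' i₀ (by decide)) (rtk2ix_ne_of_ne' i₀ (by decide))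
      (rtk2ix_ne_of_ne' i₀ (by decide)) ?_
    refine (rtk2_freeGen_span_singleton (rtk2_free_C _ lam)).sup (rtk2_freeGen_IG S ?_)
    intro i hi
    have hne : i ≠ i₀ := fun h => hi₀ (h ▸ hi)
    simp only [Set.mem_insert_iff, Set.mem_singleton_iff, not_or]
    exact ⟨⟨rtk2ix_ne_of_ne hne _ _, rtk2ix_ne_of_ne hne _ _, rtk2ix_ne_of_ne hne _ _⟩,
      ⟨rtk2ix_ne_of_ne hne _ _, rtk2ix_ne_of_ne hne _ _, rtk2ix_ne_of_ne hne _ _⟩,
      ⟨rtk2ix_ne_of_ne hne _ _, rtk2ix_ne_of_ne hne _ _, rtk2ix_ne_of_ne hne _ _⟩⟩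

theorem rtk2_Cd_mem {δ : ι → O} (hδ : ∀ i, lam ∣ δ i) (i : ι) :
    (C (δ i ^ 2) : Rtk2P O ι τ) ∈ Ideal.span {(C lam : Rtk2P O ι τ)} := by
  obtain ⟨r, hr⟩ := hδ i
  rw [Ideal.mem_span_singleton']
  refine ⟨C (r * δ i), ?_⟩
  rw [← map_mul, hr]
  congr 1
  ring

/-- The special fibre: `(f_i) + (λ) = (λ) + (g_i)`. -/
theorem rtk2_IE_sup_eq {δ : ι → O} (hδ : ∀ i, lam ∣ δ i) (S : Finset ι) :
    rtk2IE τ δ S ⊔ Ideal.span {(C lam : Rtk2P O ι τ)} =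
      Ideal.span {(C lam : Rtk2P O ι τ)} ⊔ rtk2IG O τ S := by
  apply le_antisymm
  · refine sup_le (iSup₂_le fun i hi => ?_) le_sup_left
    rw [Ideal.span_singleton_le_iff_mem, rtk2_f_eq]
    exact Ideal.sub_mem _ (Ideal.mem_sup_right (rtk2_g_mem_IG hi))
      (Ideal.mem_sup_left (rtk2_Cd_mem hδ i))
  · refine sup_le le_sup_right (iSup₂_le fun i hi => ?_)
    rw [Ideal.span_singleton_le_iff_mem]
    have : (rtk2g i : Rtk2P O ι τ) = rtk2f δ i + C (δ i ^ 2) := by rw [rtk2_f_eq]; ring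
    rw [this]
    exact Ideal.add_mem _ (Ideal.mem_sup_left (rtk2_f_mem_IE δ hi))
      (Ideal.mem_sup_right (rtk2_Cd_mem hδ i))

/-- `f_{i₀} ∉ (λ, g_i : i ∈ S)` for `i₀ ∉ S`. -/
theorem rtk2_f_not_mem_B (hlam : Prime lam) {δ : ι → O} (hδ : ∀ i, lam ∣ δ i) {S : Finset ι}
    {i₀ : ι} (hi₀ : i₀ ∉ S) :
    (rtk2f δ i₀ : Rtk2P O ι τ) ∉ Ideal.span {(C lam : Rtk2P O ι τ)} ⊔ rtk2IG O τ S := by
  intro hmem
  have hprime := rtk2_B_isPrime (τ := τ) hlam S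
  have hgen : Rtk2FreeGen {rtk2ix i₀ 0}
      (Ideal.span {(C lam : Rtk2P O ι τ)} ⊔ rtk2IG O τ S) := by
    refine (rtk2_freeGen_span_singleton (rtk2_free_C _ lam)).sup (rtk2_freeGen_IG S ?_)
    intro i hi
    have hne : i ≠ i₀ := fun h => hi₀ (h ▸ hi)
    simp only [Set.mem_singleton_iff]
    exact ⟨rtk2ix_ne_of_ne hne _ _, rtk2ix_ne_of_ne hne _ _, rtk2ix_ne_of_ne hne _ _⟩
  have hg : (rtk2g i₀ : Rtk2P O ι τ) ∈ Ideal.span {(C lam : Rtk2P O ι τ)} ⊔ rtk2IG O τ S := by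
    have : (rtk2g i₀ : Rtk2P O ι τ) = rtk2f δ i₀ + C (δ i₀ ^ 2) := by rw [rtk2_f_eq]; ring
    rw [this]
    exact Ideal.add_mem _ hmem (Ideal.mem_sup_left (rtk2_Cd_mem hδ i₀))
  have h1 := hgen.shift_mem (v := rtk2ix i₀ 0) (Set.mem_singleton _)
    (hgen.shift_mem (v := rtk2ix i₀ 0) (Set.mem_singleton _) hg)
  have hfree : Rtk2Free {rtk2ix i₀ 0}
      (X (rtk2ix i₀ 1) * X (rtk2ix i₀ 2) : Rtk2P O ι τ) :=
    (rtk2_free_X (by simpa using (rtk2ix_ne_of_ne' i₀ (by decide)))).mul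
      (rtk2_free_X (by simpa using (rtk2ix_ne_of_ne' i₀ (by decide))))
  have e : (rtk2g i₀ : Rtk2P O ι τ) =
      X (rtk2ix i₀ 0) * X (rtk2ix i₀ 0) + X (rtk2ix i₀ 1) * X (rtk2ix i₀ 2) := by
    unfold rtk2g rtk2a rtk2b rtk2c; ring
  rw [e, map_add, rtk2_shift_X_mul, hfree.shift_eq_zero, add_zero] at h1
  have e2 : (X (rtk2ix i₀ 0) : Rtk2P O ι τ) = X (rtk2ix i₀ 0) * 1 := (mul_one _).symm
  rw [e2, rtk2_shift_X_mul] at h1
  exact hprime.ne_top ((Ideal.eq_top_iff_one _).mpr h1)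

/-- `λ` is a nonzerodivisor modulo `(f_i : i ∈ S)`. -/
theorem rtk2_lam_nzd_IE (hlam : Prime lam) {δ : ι → O} (hδ : ∀ i, lam ∣ δ i) (S : Finset ι) :
    ∀ F : Rtk2P O ι τ, C lam * F ∈ rtk2IE τ δ S → F ∈ rtk2IE τ δ S := by
  classical
  induction S using Finset.induction_on with
  | empty =>
    intro F hF
    have h0 : rtk2IE τ δ (∅ : Finset ι) = ⊥ := by
      unfold rtk2IE
      simp
    rw [h0, Ideal.mem_bot] at hF ⊢
    rcases mul_eq_zero.mp hF with h | h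
    · exfalso
      have := congrArg (constantCoeff (σ := Rtk2Var ι τ) (R := O)) h
      rw [constantCoeff_C, map_zero] at this
      exact hlam.ne_zero this
    · exact h
  | insert i₀ S hi₀ ih =>
    rw [rtk2_IE_insert]
    refine rtk2_nzd_sup ?_ ?_ ih
    · rw [rtk2_IE_sup_eq hδ]
      exact rtk2_B_isPrime hlam S
    · rw [rtk2_IE_sup_eq hδ]
      exact rtk2_f_not_mem_B hlam hδ hi₀

/-- `(f_i : i ∈ S)` is prime. -/
theorem rtk2_IE_isPrime [IsLocalRing O] [IsNoetherianRing O] [Finite ι] [Finite τ]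
    (hlam : Prime lam) {δ : ι → O} (hδ : ∀ i, lam ∣ δ i) (S : Finset ι) :
    (rtk2IE τ δ S).IsPrime := by
  refine rtk2_isPrime_of_sup_span (t := C lam) (rtk2_span_C_le_jacobson hlam.not_isUnit) ?_
    (rtk2_lam_nzd_IE hlam hδ S)
  rw [rtk2_IE_sup_eq hδ]
  exact rtk2_B_isPrime hlam S

end Quadrics

/-! ## the minors -/

section Minors

variable [IsDomain O] {lam : O}

theorem rtk2_constantCoeff_m (i : ι) :
    constantCoeff (rtk2m1 i : Rtk2P O ι τ) = 0 ∧ constantCoeff (rtk2m2 i : Rtk2P O ι τ) = 0 ∧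
      constantCoeff (rtk2m3 i : Rtk2P O ι τ) = 0 := by
  unfold rtk2m1 rtk2m2 rtk2m3 rtk2a rtk2b rtk2c rtk2X rtk2Y rtk2Z
  refine ⟨?_, ?_, ?_⟩ <;> simp

/-- The constant coefficients of the elements of `(f_i, minors)` lie in `(λ²)`. -/
theorem rtk2_I_le_comap {δ : ι → O} (hδ : ∀ i, lam ∣ δ i) (S₁ S₂ : Finset ι) :
    rtk2IE τ δ S₁ ⊔ rtk2IM O τ S₂ ≤
      Ideal.comap (constantCoeff (σ := Rtk2Var ι τ) (R := O)) (Ideal.span {lam ^ 2}) := by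
  refine sup_le (iSup₂_le fun i _ => ?_) (iSup₂_le fun i _ => ?_)
  · rw [Ideal.span_singleton_le_iff_mem, Ideal.mem_comap]
    have : constantCoeff (rtk2f δ i : Rtk2P O ι τ) = -(δ i ^ 2) := by
      unfold rtk2f rtk2a rtk2b rtk2c
      simp
    rw [this]
    obtain ⟨r, hr⟩ := hδ i
    refine neg_mem ?_
    rw [Ideal.mem_span_singleton']
    exact ⟨r ^ 2, by rw [hr]; ring⟩
  · rw [Ideal.span_le]
    intro g hg
    simp only [Set.mem_insert_iff, Set.mem_singleton_iff] at hg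
    rw [SetLike.mem_coe, Ideal.mem_comap]
    obtain ⟨h1, h2, h3⟩ := rtk2_constantCoeff_m (O := O) (τ := τ) i
    rcases hg with rfl | rfl | rfl
    · rw [h1]; exact Ideal.zero_mem _
    · rw [h2]; exact Ideal.zero_mem _
    · rw [h3]; exact Ideal.zero_mem _

/-- A prime ideal whose elements have constant coefficients in `(λ²)` does not contain
`C (λ^n·unit)`. -/
theorem rtk2_C_not_mem (hlam : Prime lam) {𝔭 : Ideal (Rtk2P O ι τ)} [h𝔭 : 𝔭.IsPrime]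
    (hle : 𝔭 ≤ Ideal.comap (constantCoeff (σ := Rtk2Var ι τ) (R := O)) (Ideal.span {lam ^ 2}))
    {d : O} (hd : ∃ (n : ℕ) (u : O), IsUnit u ∧ d = lam ^ n * u) :
    (C d : Rtk2P O ι τ) ∉ 𝔭 := by
  obtain ⟨n, u, hu, rfl⟩ := hd
  intro hmem
  have hnot : ∀ r : O, (∃ s, lam * s = r) → IsUnit r → False := by
    rintro r ⟨s, rfl⟩ hr
    exact hlam.not_isUnit (isUnit_of_mul_isUnit_left hr)
  have hlam2 : (C lam : Rtk2P O ι τ) ∉ 𝔭 := by
    intro h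
    have := hle h
    rw [Ideal.mem_comap, constantCoeff_C, Ideal.mem_span_singleton'] at this
    obtain ⟨r, hr⟩ := this
    have h1 : lam * (r * lam) = lam * 1 := by
      calc lam * (r * lam) = r * lam ^ 2 := by ring
        _ = lam := hr
        _ = lam * 1 := (mul_one _).symm
    have h2 := mul_left_cancel₀ hlam.ne_zero h1
    exact hnot 1 ⟨r, by rw [← h2]; ring⟩ isUnit_one
  have hu2 : (C u : Rtk2P O ι τ) ∉ 𝔭 := by
    intro h
    have := hle h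
    rw [Ideal.mem_comap, constantCoeff_C, Ideal.mem_span_singleton'] at this
    obtain ⟨r, hr⟩ := this
    exact hnot u ⟨r * lam, by rw [← hr]; ring⟩ hu
  rw [map_mul, map_pow] at hmem
  rcases h𝔭.mem_or_mem hmem with h | h
  · exact hlam2 (h𝔭.mem_of_pow_mem n h)
  · exact hu2 h

theorem rtk2_not_mem_three {i i₀ : ι} (h : i ≠ i₀) (k l₁ l₂ l₃ : Fin 6) :
    (rtk2ix i k : Rtk2Var ι τ) ∉
      ({rtk2ix i₀ l₁, rtk2ix i₀ l₂, rtk2ix i₀ l₃} : Set (Rtk2Var ι τ)) := by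
  simp only [Set.mem_insert_iff, Set.mem_singleton_iff, not_or]
  exact ⟨rtk2ix_ne_of_ne h _ _, rtk2ix_ne_of_ne h _ _, rtk2ix_ne_of_ne h _ _⟩

theorem rtk2_not_mem_three' (i i₀ : ι) {k l₁ l₂ l₃ : Fin 6} (h1 : k ≠ l₁) (h2 : k ≠ l₂)
    (h3 : k ≠ l₃) :
    (rtk2ix i k : Rtk2Var ι τ) ∉
      ({rtk2ix i₀ l₁, rtk2ix i₀ l₂, rtk2ix i₀ l₃} : Set (Rtk2Var ι τ)) := by
  simp only [Set.mem_insert_iff, Set.mem_singleton_iff, not_or]
  refine ⟨fun e => h1 ?_, fun e => h2 ?_, fun e => h3 ?_⟩ <;>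
  · unfold rtk2ix at e
    exact (Prod.mk.inj (Sum.inl_injective e)).2

theorem rtk2_m_mem_IM {S : Finset ι} {i : ι} (hi : i ∈ S) :
    (rtk2m1 i : Rtk2P O ι τ) ∈ rtk2IM O τ S ∧ (rtk2m2 i : Rtk2P O ι τ) ∈ rtk2IM O τ S ∧
      (rtk2m3 i : Rtk2P O ι τ) ∈ rtk2IM O τ S := by
  have hle := le_iSup₂ (f := fun i (_ : i ∈ S) =>
    Ideal.span {(rtk2m1 i : Rtk2P O ι τ), rtk2m2 i, rtk2m3 i}) i hi
  exact ⟨hle (Ideal.subset_span (by simp)), hle (Ideal.subset_span (by simp)),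
    hle (Ideal.subset_span (by simp))⟩

/-- `(f_i : i ∈ S₁) + (minors of the primes in S₂)` is prime for `S₂ ⊆ S₁`. -/
theorem rtk2_I_isPrime [IsLocalRing O] [IsNoetherianRing O] [Finite ι] [Finite τ]
    (hlam : Prime lam) {δ : ι → O}
    (hδ : ∀ i, ∃ (k : ℕ) (u : O), IsUnit u ∧ δ i = lam ^ (k + 1) * u) :
    ∀ (S₂ S₁ : Finset ι), S₂ ⊆ S₁ → (rtk2IE τ δ S₁ ⊔ rtk2IM O τ S₂).IsPrime := by
  classical
  have hδ' : ∀ i, lam ∣ δ i := fun i => by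
    obtain ⟨k, u, _, h⟩ := hδ i
    exact ⟨lam ^ k * u, by rw [h]; ring⟩
  intro S₂
  induction S₂ using Finset.induction_on with
  | empty =>
    intro S₁ _
    have : rtk2IM O τ (∅ : Finset ι) = ⊥ := by
      unfold rtk2IM
      simp
    rw [this, sup_bot_eq]
    exact rtk2_IE_isPrime hlam hδ' S₁
  | insert i₀ S₂ hi₀ ih =>
    intro S₁ hsub
    have hi₀S₁ : i₀ ∈ S₁ := hsub (Finset.mem_insert_self _ _)
    have hS₂ : S₂ ⊆ S₁ := fun j hj => hsub (Finset.mem_insert_of_mem hj)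
    have hS₂' : S₂ ⊆ S₁.erase i₀ := fun j hj =>
      Finset.mem_erase.mpr ⟨fun h => hi₀ (h ▸ hj), hS₂ hj⟩
    haveI hp' : (rtk2IE τ δ (S₁.erase i₀) ⊔ rtk2IM O τ S₂).IsPrime := ih _ hS₂'
    haveI hp : (rtk2IE τ δ S₁ ⊔ rtk2IM O τ S₂).IsPrime := ih _ hS₂
    have hIE : rtk2IE τ δ S₁ = rtk2IE τ δ (S₁.erase i₀) ⊔ Ideal.span {rtk2f δ i₀} := by
      rw [← rtk2_IE_insert, Finset.insert_erase hi₀S₁]
    have h𝔞eq : rtk2IE τ δ S₁ ⊔ rtk2IM O τ S₂ =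
        (rtk2IE τ δ (S₁.erase i₀) ⊔ rtk2IM O τ S₂) ⊔ Ideal.span {rtk2f δ i₀} := by
      rw [hIE]
      exact sup_right_comm _ _ _
    have hne₂ : ∀ j ∈ S₂, j ≠ i₀ := fun j hj h => hi₀ (h ▸ hj)
    have hgen' : Rtk2FreeGen {rtk2ix i₀ 0, rtk2ix i₀ 1, rtk2ix i₀ 2}
        (rtk2IE τ δ (S₁.erase i₀) ⊔ rtk2IM O τ S₂) := by
      refine (rtk2_freeGen_IE δ _ fun i hi => ?_).sup (rtk2_freeGen_IM _ fun j hj k => ?_)
      · have hne : i ≠ i₀ := (Finset.mem_erase.mp hi).1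
        exact ⟨rtk2_not_mem_three hne _ _ _ _, rtk2_not_mem_three hne _ _ _ _,
          rtk2_not_mem_three hne _ _ _ _⟩
      · exact rtk2_not_mem_three (hne₂ j hj) _ _ _ _
    have hgen : Rtk2FreeGen {rtk2ix i₀ 3, rtk2ix i₀ 4, rtk2ix i₀ 5}
        (rtk2IE τ δ S₁ ⊔ rtk2IM O τ S₂) := by
      refine (rtk2_freeGen_IE δ _ fun i _ => ?_).sup (rtk2_freeGen_IM _ fun j hj k => ?_)
      · exact ⟨rtk2_not_mem_three' _ _ (by decide) (by decide) (by decide),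
          rtk2_not_mem_three' _ _ (by decide) (by decide) (by decide),
          rtk2_not_mem_three' _ _ (by decide) (by decide) (by decide)⟩
      · exact rtk2_not_mem_three (hne₂ j hj) _ _ _ _
    have hd : (C (δ i₀ ^ 2) : Rtk2P O ι τ) ∉ rtk2IE τ δ (S₁.erase i₀) ⊔ rtk2IM O τ S₂ := by
      obtain ⟨k, u, hu, h⟩ := hδ i₀
      exact rtk2_C_not_mem hlam (rtk2_I_le_comap hδ' _ _)
        ⟨2 * (k + 1), u ^ 2, hu.pow 2, by rw [h]; ring⟩
    obtain ⟨H1, H2, H3⟩ := rtk2_regular_abc (a := rtk2ix i₀ 0) (b := rtk2ix i₀ 1)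
      (c := rtk2ix i₀ 2) (rtk2ix_ne_of_ne' i₀ (by decide)) (rtk2ix_ne_of_ne' i₀ (by decide))
      (rtk2ix_ne_of_ne' i₀ (by decide)) hgen' hd (rtk2f δ i₀) rfl
    rw [← h𝔞eq] at H1 H2 H3
    have key := rtk2_a1 (x := rtk2ix i₀ 3) (y := rtk2ix i₀ 4) (z := rtk2ix i₀ 5)
      (a := rtk2ix i₀ 0) (b := rtk2ix i₀ 1) (c := rtk2ix i₀ 2)
      (rtk2ix_ne_of_ne' i₀ (by decide)) (rtk2ix_ne_of_ne' i₀ (by decide))
      (rtk2ix_ne_of_ne' i₀ (by decide))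
      (rtk2_not_mem_three' _ _ (by decide) (by decide) (by decide))
      (rtk2_not_mem_three' _ _ (by decide) (by decide) (by decide))
      (rtk2_not_mem_three' _ _ (by decide) (by decide) (by decide)) hgen H1 H2 H3
    have e : rtk2IE τ δ S₁ ⊔ rtk2IM O τ (insert i₀ S₂) =
        (rtk2IE τ δ S₁ ⊔ rtk2IM O τ S₂) ⊔
          Ideal.span {rtk2Mi (rtk2ix i₀ 3) (rtk2ix i₀ 4) (rtk2ix i₀ 0) (rtk2ix i₀ 1),
            rtk2Mi (rtk2ix i₀ 3) (rtk2ix i₀ 5) (rtk2ix i₀ 0) (rtk2ix i₀ 2),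
            rtk2Mi (rtk2ix i₀ 4) (rtk2ix i₀ 5) (rtk2ix i₀ 1) (rtk2ix i₀ 2)} := by
      rw [rtk2_IM_insert, ← sup_assoc]
      rfl
    rw [e]
    exact key

theorem rtk2_Ichi_eq [Fintype ι] (δ : ι → O) :
    rtk2Ichi τ δ = rtk2IE τ δ Finset.univ ⊔ rtk2IM O τ Finset.univ := by
  apply le_antisymm
  · refine rtk2_Ichi_le fun i => ⟨Ideal.mem_sup_left (rtk2_f_mem_IE δ (Finset.mem_univ i)),
      Ideal.mem_sup_right (rtk2_m_mem_IM (Finset.mem_univ i)).1,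
      Ideal.mem_sup_right (rtk2_m_mem_IM (Finset.mem_univ i)).2.1,
      Ideal.mem_sup_right (rtk2_m_mem_IM (Finset.mem_univ i)).2.2⟩
  · refine sup_le (iSup₂_le fun i _ => ?_) (iSup₂_le fun i _ => ?_)
    · rw [Ideal.span_singleton_le_iff_mem]
      exact rtk2_f_mem_Ichi δ i
    · rw [Ideal.span_le]
      intro g hg
      simp only [Set.mem_insert_iff, Set.mem_singleton_iff] at hg
      rcases hg with rfl | rfl | rfl
      · exact rtk2_m1_mem_Ichi δ i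
      · exact rtk2_m2_mem_Ichi δ i
      · exact rtk2_m3_mem_Ichi δ i

/-- **The type-`χ` ideal is prime.** -/
theorem rtk2_Ichi_isPrime [IsLocalRing O] [IsNoetherianRing O] [Finite ι] [Finite τ]
    (hlam : Prime lam) {δ : ι → O}
    (hδ : ∀ i, ∃ (k : ℕ) (u : O), IsUnit u ∧ δ i = lam ^ (k + 1) * u) :
    (rtk2Ichi τ δ).IsPrime := by
  classical
  haveI := Fintype.ofFinite ι
  rw [rtk2_Ichi_eq]
  exact rtk2_I_isPrime hlam hδ _ _ (Finset.Subset.refl _)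

/-- **The type-`χ` local ring `R^χ_∞` is a domain.** -/
theorem rtk2_Rchi_isDomain [IsLocalRing O] [IsNoetherianRing O] [Finite ι] [Finite τ]
    (hlam : Prime lam) {δ : ι → O}
    (hδ : ∀ i, ∃ (k : ℕ) (u : O), IsUnit u ∧ δ i = lam ^ (k + 1) * u) :
    IsDomain (Rtk2Rchi τ δ) := by
  haveI := rtk2_Ichi_isPrime (τ := τ) hlam hδ
  exact Ideal.Quotient.isDomain _

end Minors

end Fermat.Agent.RT.K2
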