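import Fermat.Agent.RT.K2.Domain

/-!
# RT-K2: the domain theorem over a discrete valuation ring

`rtk2_Ichi_isPrime_dvr` : the form of `rtk2_Ichi_isPrime` consumed by `StmtOutTW`
(`O` a discrete valuation ring with uniformiser `λ`, `δ_i ≠ 0`, `λ ∣ δ_i`).
-/

set_option autoImplicit false

namespace Fermat.Agent.RT.K2

open MvPowerSeries IsLocalRing

variable {O : Type*} [CommRing O] [IsDomain O] [IsDiscreteValuationRing O] {ι τ : Type*}

theorem rtk2_prime_of_uniformizer {lam : O} (hlam : maximalIdeal O = Ideal.span {lam}) :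
    Prime lam :=
  ((IsDiscreteValuationRing.irreducible_iff_uniformizer lam).mpr hlam).prime

theorem rtk2_unit_pow_of_ne_zero {lam : O} (hlam : maximalIdeal O = Ideal.span {lam}) {d : O}
    (hd0 : d ≠ 0) (hd : ∃ r, d = lam * r) :
    ∃ (k : ℕ) (u : O), IsUnit u ∧ d = lam ^ (k + 1) * u := by
  have hirr : Irreducible lam := (IsDiscreteValuationRing.irreducible_iff_uniformizer lam).mpr hlam
  obtain ⟨n, u, hu⟩ := IsDiscreteValuationRing.eq_unit_mul_pow_irreducible hd0 hirr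
  rcases Nat.eq_zero_or_pos n with h0 | hpos
  · exfalso
    rw [h0, pow_zero, mul_one] at hu
    obtain ⟨r, hr⟩ := hd
    have : IsUnit (lam * r) := by rw [← hr, hu]; exact u.isUnit
    exact hirr.not_isUnit (isUnit_of_mul_isUnit_left this)
  · obtain ⟨k, rfl⟩ := Nat.exists_eq_succ_of_ne_zero hpos.ne'
    exact ⟨k, u, u.isUnit, by rw [hu, mul_comm]⟩

/-- **The type-`χ` ideal is prime** (discrete valuation ring form). -/
theorem rtk2_Ichi_isPrime_dvr [Finite ι] [Finite τ] {lam : O}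
    (hlam : maximalIdeal O = Ideal.span {lam}) {δ : ι → O} (hδ0 : ∀ i, δ i ≠ 0)
    (hδ : ∀ i, ∃ r, δ i = lam * r) : (rtk2Ichi τ δ).IsPrime :=
  rtk2_Ichi_isPrime (rtk2_prime_of_uniformizer hlam)
    fun i => rtk2_unit_pow_of_ne_zero hlam (hδ0 i) (hδ i)

/-- **`R^χ_∞` is a domain** (discrete valuation ring form). -/
theorem rtk2_Rchi_isDomain_dvr [Finite ι] [Finite τ] {lam : O}
    (hlam : maximalIdeal O = Ideal.span {lam}) {δ : ι → O} (hδ0 : ∀ i, δ i ≠ 0)
    (hδ : ∀ i, ∃ r, δ i = lam * r) : IsDomain (Rtk2Rchi τ δ) := by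
  haveI := rtk2_Ichi_isPrime_dvr (τ := τ) hlam hδ0 hδ
  exact Ideal.Quotient.isDomain _

end Fermat.Agent.RT.K2
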