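import Fermat.Agent.RT.K2.Graded

/-!
# RT-K2: ideals generated by finitely many power series not involving some variables

`Rtk2FreeGen V 𝔟` : the ideal `𝔟` of `MvPowerSeries σ R` is generated by finitely many power series
which do not involve the variables of `V`.  Such ideals are stable under the divided differences
and under the weighted homogeneous components (for weights supported in `V`), the variables of `V`
are nonzerodivisors modulo `𝔟`, and `𝔟` is closed for the `X_v`-adic topology (`v ∈ V`).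
-/

set_option autoImplicit false

namespace Fermat.Agent.RT.K2

open MvPowerSeries Finsupp

variable {σ : Type*} {R : Type*} [CommRing R]

/-- `𝔟` is generated by finitely many power series free of the variables of `V`. -/
def Rtk2FreeGen (V : Set σ) (𝔟 : Ideal (MvPowerSeries σ R)) : Prop :=
  ∃ (κ : Type) (_ : Fintype κ) (γ : κ → MvPowerSeries σ R),
    𝔟 = Ideal.span (Set.range γ) ∧ ∀ k, Rtk2Free V (γ k)

theorem Rtk2FreeGen.mono {V W : Set σ} {𝔟 : Ideal (MvPowerSeries σ R)} (h : Rtk2FreeGen W 𝔟)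
    (hVW : V ⊆ W) : Rtk2FreeGen V 𝔟 := by
  obtain ⟨κ, i, γ, h1, h2⟩ := h
  exact ⟨κ, i, γ, h1, fun k => (h2 k).mono hVW⟩

theorem rtk2_freeGen_bot (V : Set σ) : Rtk2FreeGen V (⊥ : Ideal (MvPowerSeries σ R)) :=
  ⟨Empty, inferInstance, fun k => k.elim, by
    rw [Set.range_eq_empty, Ideal.span_empty], fun k => k.elim⟩

theorem rtk2_freeGen_span_singleton {V : Set σ} {g : MvPowerSeries σ R} (hg : Rtk2Free V g) :
    Rtk2FreeGen V (Ideal.span {g}) :=
  ⟨Unit, inferInstance, fun _ => g, by simp, fun _ => hg⟩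

theorem Rtk2FreeGen.sup {V : Set σ} {𝔟 𝔠 : Ideal (MvPowerSeries σ R)} (h1 : Rtk2FreeGen V 𝔟)
    (h2 : Rtk2FreeGen V 𝔠) : Rtk2FreeGen V (𝔟 ⊔ 𝔠) := by
  obtain ⟨κ, i, γ, hb, hγ⟩ := h1
  obtain ⟨κ', i', γ', hc, hγ'⟩ := h2
  refine ⟨κ ⊕ κ', inferInstance, Sum.elim γ γ', ?_, ?_⟩
  · rw [Set.Sum.elim_range, Ideal.span_union, hb, hc]
  · rintro (k | k)
    · exact hγ k
    · exact hγ' k

theorem rtk2_freeGen_span_pair {V : Set σ} {g h : MvPowerSeries σ R} (hg : Rtk2Free V g)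
    (hh : Rtk2Free V h) : Rtk2FreeGen V (Ideal.span {g, h}) := by
  have : (Ideal.span {g, h} : Ideal (MvPowerSeries σ R)) = Ideal.span {g} ⊔ Ideal.span {h} := by
    rw [← Ideal.span_union]; rfl
  rw [this]
  exact (rtk2_freeGen_span_singleton hg).sup (rtk2_freeGen_span_singleton hh)

theorem rtk2_freeGen_iSup {V : Set σ} {ι : Type*} (s : Finset ι)
    (𝔟 : ι → Ideal (MvPowerSeries σ R)) (h : ∀ i ∈ s, Rtk2FreeGen V (𝔟 i)) :
    Rtk2FreeGen V (⨆ i ∈ s, 𝔟 i) := by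
  classical
  induction s using Finset.induction_on with
  | empty => simpa using rtk2_freeGen_bot V
  | insert a s ha ih =>
    rw [Finset.iSup_insert]
    exact (h a (Finset.mem_insert_self a s)).sup
      (ih fun i hi => h i (Finset.mem_insert_of_mem hi))

section

variable {V : Set σ} {𝔟 : Ideal (MvPowerSeries σ R)}

theorem Rtk2FreeGen.shift_mem (h : Rtk2FreeGen V 𝔟) {v : σ} (hv : v ∈ V)
    {F : MvPowerSeries σ R} (hF : F ∈ 𝔟) : rtk2Shift v F ∈ 𝔟 := by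
  obtain ⟨κ, i, γ, rfl, hγ⟩ := h
  refine rtk2_shift_mem_span ?_ hF
  rintro _ ⟨k, rfl⟩
  exact (hγ k).mono (Set.singleton_subset_iff.mpr hv)

theorem Rtk2FreeGen.kill_mem (h : Rtk2FreeGen V 𝔟) {v : σ} (hv : v ∈ V)
    {F : MvPowerSeries σ R} (hF : F ∈ 𝔟) : rtk2Kill v F ∈ 𝔟 := by
  unfold rtk2Kill
  exact Ideal.sub_mem _ hF (Ideal.mul_mem_left _ _ (h.shift_mem hv hF))

theorem Rtk2FreeGen.of_X_mul_mem (h : Rtk2FreeGen V 𝔟) {v : σ} (hv : v ∈ V)
    {F : MvPowerSeries σ R} (hF : X v * F ∈ 𝔟) : F ∈ 𝔟 := by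
  have := h.shift_mem hv hF
  rwa [rtk2_shift_X_mul] at this

theorem Rtk2FreeGen.of_X_pow_mul_mem (h : Rtk2FreeGen V 𝔟) {v : σ} (hv : v ∈ V) (n : ℕ)
    {F : MvPowerSeries σ R} (hF : X v ^ n * F ∈ 𝔟) : F ∈ 𝔟 := by
  induction n with
  | zero => simpa using hF
  | succ n ih =>
    apply ih
    apply h.of_X_mul_mem hv
    rw [← mul_assoc, ← pow_succ']
    exact hF

/-- The components for a weight supported in `V` preserve `𝔟`. -/
theorem Rtk2FreeGen.comp_mem (h : Rtk2FreeGen V 𝔟) {w : σ → ℕ} (hw : ∀ s, s ∉ V → w s = 0)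
    {F : MvPowerSeries σ R} (hF : F ∈ 𝔟) (d : ℕ) : rtk2Comp w d F ∈ 𝔟 := by
  obtain ⟨κ, i, γ, rfl, hγ⟩ := h
  exact rtk2_comp_mem_span γ (fun _ => 0) (fun k => (hγ k).wh_zero hw) hF d

/-- `𝔟` is closed: it contains `F` as soon as it contains the components of `F`. -/
theorem Rtk2FreeGen.mem_of_comp (h : Rtk2FreeGen V 𝔟) {w : σ → ℕ} (hw : ∀ s, s ∉ V → w s = 0)
    {F : MvPowerSeries σ R} (hF : ∀ d, rtk2Comp w d F ∈ 𝔟) : F ∈ 𝔟 := by
  obtain ⟨κ, i, γ, rfl, hγ⟩ := h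
  exact rtk2_mem_span_of_comp γ (fun _ => 0) (fun k => (hγ k).wh_zero hw) hF

/-- `𝔟` is closed for the `X_v`-adic topology. -/
theorem Rtk2FreeGen.mem_of_forall_pow (h : Rtk2FreeGen V 𝔟) {v : σ} (hv : v ∈ V)
    {F : MvPowerSeries σ R} (hF : ∀ n : ℕ, ∃ G, F - X v ^ n * G ∈ 𝔟) : F ∈ 𝔟 := by
  classical
  have h' : Rtk2FreeGen {v} 𝔟 := h.mono (Set.singleton_subset_iff.mpr hv)
  let w : σ → ℕ := fun s => if s = v then 1 else 0
  have hw : ∀ s, s ∉ ({v} : Set σ) → w s = 0 := fun s hs => if_neg hs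
  refine h'.mem_of_comp hw fun d => ?_
  obtain ⟨G, hG⟩ := hF (d + 1)
  have hX : Rtk2WH w (X v ^ (d + 1) : MvPowerSeries σ R) (d + 1) := by
    have := (rtk2_WH_X (R := R) w v).pow (d + 1)
    simpa [w] using this
  have h1 := h'.comp_mem hw hG d
  rw [map_sub, rtk2_comp_WH_mul hX, if_neg (by omega), sub_zero] at h1
  exact h1

end

end Fermat.Agent.RT.K2
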