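import Mathlib

/-!
# RT-K2: a small graded toolkit for `MvPowerSeries`

* `rtk2Shift v` : the divided difference `F ↦ (F − F|_{v = 0})/X_v` (coefficient shift);
* `rtk2Kill v`  : `F ↦ F|_{v = 0} = F − X_v · rtk2Shift v F`;
* `Rtk2Free V F` : `F` does not involve the variables of `V`;
* weighted homogeneous components: product formula, components of `F * G` for `G` homogeneous;
* `rtk2_mem_span_of_comp` : an ideal generated by finitely many weighted homogeneous elements
  contains `F` as soon as it contains all the weighted homogeneous components of `F`;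
* `rtk2_isPrime_of_homogeneous` : such an ideal is prime as soon as it is "prime on homogeneous
  elements".
-/

set_option autoImplicit false

namespace Fermat.Agent.RT.K2

open MvPowerSeries Finsupp

variable {σ : Type*} {R : Type*} [CommRing R]

/-! ## shift and kill -/

section Shift

/-- The divided difference with respect to the variable `v`. -/
noncomputable def rtk2Shift (v : σ) : MvPowerSeries σ R →ₗ[R] MvPowerSeries σ R where
  toFun F := fun m => coeff (m + single v 1) F
  map_add' F G := by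
    ext m
    show coeff _ (F + G) = coeff _ F + coeff _ G
    exact map_add _ _ _
  map_smul' r F := by
    ext m
    show coeff _ (r • F) = r • coeff _ F
    exact map_smul _ _ _

theorem rtk2_coeff_shift (v : σ) (F : MvPowerSeries σ R) (m : σ →₀ ℕ) :
    coeff m (rtk2Shift v F) = coeff (m + single v 1) F := rfl

theorem rtk2_coeff_X_mul (v : σ) (F : MvPowerSeries σ R) (m : σ →₀ ℕ) :
    coeff m (X v * F) = if m v = 0 then 0 else coeff (m - single v 1) F := by
  classical
  rw [X_def, coeff_monomial_mul]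
  by_cases h : m v = 0
  · rw [if_pos h, if_neg]
    intro hle
    have := hle v
    simp [h] at this
  · rw [if_neg h, if_pos, one_mul]
    intro s
    by_cases hs : s = v
    · subst hs
      simp only [single_eq_same]
      omega
    · simp [Ne.symm hs]

theorem rtk2_shift_X_mul (v : σ) (F : MvPowerSeries σ R) : rtk2Shift v (X v * F) = F := by
  ext m
  rw [rtk2_coeff_shift, rtk2_coeff_X_mul, if_neg (by simp), add_tsub_cancel_right]

/-- `F|_{v = 0}`. -/
noncomputable def rtk2Kill (v : σ) (F : MvPowerSeries σ R) : MvPowerSeries σ R :=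
  F - X v * rtk2Shift v F

theorem rtk2_kill_add_X_mul_shift (v : σ) (F : MvPowerSeries σ R) :
    rtk2Kill v F + X v * rtk2Shift v F = F := by
  unfold rtk2Kill; ring

theorem rtk2_coeff_kill (v : σ) (F : MvPowerSeries σ R) (m : σ →₀ ℕ) :
    coeff m (rtk2Kill v F) = if m v = 0 then coeff m F else 0 := by
  unfold rtk2Kill
  rw [map_sub, rtk2_coeff_X_mul]
  by_cases h : m v = 0
  · simp [h]
  · rw [if_neg h, if_neg h, rtk2_coeff_shift]
    have : m - single v 1 + single v 1 = m := by
      ext s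
      by_cases hs : s = v
      · subst hs
        simp only [coe_add, coe_tsub, Pi.add_apply, Pi.sub_apply, single_eq_same]
        omega
      · simp [Ne.symm hs]
    rw [this, sub_self]

/-- `F` does not involve the variables of `V`. -/
def Rtk2Free (V : Set σ) (F : MvPowerSeries σ R) : Prop :=
  ∀ m : σ →₀ ℕ, (∃ v ∈ V, m v ≠ 0) → coeff m F = 0

theorem Rtk2Free.mono {V W : Set σ} {F : MvPowerSeries σ R} (h : Rtk2Free W F) (hVW : V ⊆ W) :
    Rtk2Free V F := fun m ⟨v, hv, hm⟩ => h m ⟨v, hVW hv, hm⟩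

theorem rtk2_free_zero (V : Set σ) : Rtk2Free V (0 : MvPowerSeries σ R) := fun _ _ => by simp

theorem rtk2_free_C (V : Set σ) (r : R) : Rtk2Free V (C r : MvPowerSeries σ R) := by
  classical
  intro m ⟨v, _, hm⟩
  rw [coeff_C, if_neg]
  rintro rfl
  simp at hm

theorem rtk2_free_one (V : Set σ) : Rtk2Free V (1 : MvPowerSeries σ R) := by
  have := rtk2_free_C (R := R) V 1
  simpa using this

theorem rtk2_free_X {V : Set σ} {s : σ} (hs : s ∉ V) : Rtk2Free V (X s : MvPowerSeries σ R) := by
  classical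
  intro m ⟨v, hv, hm⟩
  rw [coeff_X, if_neg]
  rintro rfl
  rw [single_apply] at hm
  split_ifs at hm with h
  · exact hs (h ▸ hv)
  · exact hm rfl

theorem Rtk2Free.add {V : Set σ} {F G : MvPowerSeries σ R} (hF : Rtk2Free V F)
    (hG : Rtk2Free V G) : Rtk2Free V (F + G) := fun m hm => by
  rw [map_add, hF m hm, hG m hm, add_zero]

theorem Rtk2Free.neg {V : Set σ} {F : MvPowerSeries σ R} (hF : Rtk2Free V F) :
    Rtk2Free V (-F) := fun m hm => by
  rw [map_neg, hF m hm, neg_zero]

theorem Rtk2Free.sub {V : Set σ} {F G : MvPowerSeries σ R} (hF : Rtk2Free V F)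
    (hG : Rtk2Free V G) : Rtk2Free V (F - G) := fun m hm => by
  rw [map_sub, hF m hm, hG m hm, sub_zero]

theorem Rtk2Free.mul {V : Set σ} {F G : MvPowerSeries σ R} (hF : Rtk2Free V F)
    (hG : Rtk2Free V G) : Rtk2Free V (F * G) := by
  classical
  intro m ⟨v, hv, hm⟩
  rw [coeff_mul]
  refine Finset.sum_eq_zero fun p hp => ?_
  rw [Finset.HasAntidiagonal.mem_antidiagonal] at hp
  by_cases h1 : p.1 v = 0
  · have h2 : p.2 v ≠ 0 := by
      intro h2
      apply hm
      rw [← hp]
      simp [h1, h2]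
    rw [hG _ ⟨v, hv, h2⟩, mul_zero]
  · rw [hF _ ⟨v, hv, h1⟩, zero_mul]

theorem Rtk2Free.pow {V : Set σ} {F : MvPowerSeries σ R} (hF : Rtk2Free V F) (n : ℕ) :
    Rtk2Free V (F ^ n) := by
  induction n with
  | zero => simpa using rtk2_free_one V
  | succ n ih => rw [pow_succ]; exact ih.mul hF

theorem rtk2_free_sum {V : Set σ} {κ : Type*} (s : Finset κ) (F : κ → MvPowerSeries σ R)
    (h : ∀ k ∈ s, Rtk2Free V (F k)) : Rtk2Free V (∑ k ∈ s, F k) := fun m hm => by
  rw [map_sum]
  exact Finset.sum_eq_zero fun k hk => h k hk m hm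

theorem rtk2_free_kill (v : σ) (F : MvPowerSeries σ R) : Rtk2Free {v} (rtk2Kill v F) := by
  intro m ⟨u, hu, hm⟩
  rw [Set.mem_singleton_iff] at hu
  subst hu
  rw [rtk2_coeff_kill, if_neg hm]

theorem Rtk2Free.shift {V : Set σ} {F : MvPowerSeries σ R} (hF : Rtk2Free V F) (v : σ) :
    Rtk2Free V (rtk2Shift v F) := by
  intro m ⟨u, hu, hm⟩
  rw [rtk2_coeff_shift]
  refine hF _ ⟨u, hu, ?_⟩
  simp only [coe_add, Pi.add_apply]
  omega

theorem Rtk2Free.kill {V : Set σ} {F : MvPowerSeries σ R} (hF : Rtk2Free V F) (v : σ) :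
    Rtk2Free V (rtk2Kill v F) := by
  intro m hm
  rw [rtk2_coeff_kill]
  split_ifs
  · exact hF m hm
  · rfl

theorem Rtk2Free.shift_eq_zero {v : σ} {F : MvPowerSeries σ R} (hF : Rtk2Free {v} F) :
    rtk2Shift v F = 0 := by
  ext m
  rw [rtk2_coeff_shift, map_zero]
  exact hF _ ⟨v, rfl, by simp⟩

theorem Rtk2Free.kill_eq {v : σ} {F : MvPowerSeries σ R} (hF : Rtk2Free {v} F) :
    rtk2Kill v F = F := by
  unfold rtk2Kill
  rw [hF.shift_eq_zero, mul_zero, sub_zero]

/-- Uniqueness of the decomposition `F = F₀ + X_v F₁` with `F₀` free of `v`. -/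
theorem rtk2_decomp_unique {v : σ} {A B A' B' : MvPowerSeries σ R} (hA : Rtk2Free {v} A)
    (hB : Rtk2Free {v} B) (h : A + X v * A' = B + X v * B') : A = B ∧ A' = B' := by
  have h1 : A = B := by
    have := congrArg (rtk2Kill v) h
    have e : ∀ (G G' : MvPowerSeries σ R), Rtk2Free {v} G → rtk2Kill v (G + X v * G') = G := by
      intro G G' hG
      unfold rtk2Kill
      rw [map_add, rtk2_shift_X_mul, hG.shift_eq_zero]
      ring
    rwa [e A A' hA, e B B' hB] at this
  refine ⟨h1, ?_⟩
  have := congrArg (rtk2Shift v) h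
  rwa [map_add, map_add, rtk2_shift_X_mul, rtk2_shift_X_mul, hA.shift_eq_zero,
    hB.shift_eq_zero, zero_add, zero_add] at this

theorem rtk2_kill_mul_free {v : σ} {G : MvPowerSeries σ R} (hG : Rtk2Free {v} G)
    (F : MvPowerSeries σ R) : rtk2Kill v (G * F) = G * rtk2Kill v F ∧
      rtk2Shift v (G * F) = G * rtk2Shift v F := by
  refine rtk2_decomp_unique (rtk2_free_kill v _) (hG.mul (rtk2_free_kill v F)) ?_
  rw [rtk2_kill_add_X_mul_shift]
  have := rtk2_kill_add_X_mul_shift v F
  calc G * F = G * (rtk2Kill v F + X v * rtk2Shift v F) := by rw [this]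
    _ = G * rtk2Kill v F + X v * (G * rtk2Shift v F) := by ring

theorem rtk2_shift_mul_free {v : σ} {G : MvPowerSeries σ R} (hG : Rtk2Free {v} G)
    (F : MvPowerSeries σ R) : rtk2Shift v (G * F) = G * rtk2Shift v F :=
  (rtk2_kill_mul_free hG F).2

theorem rtk2_kill_X_mul (v : σ) (F : MvPowerSeries σ R) : rtk2Kill v (X v * F) = 0 := by
  unfold rtk2Kill
  rw [rtk2_shift_X_mul, sub_self]

/-- `X_v` is not a zero divisor. -/
theorem rtk2_X_mul_cancel {v : σ} {F G : MvPowerSeries σ R} (h : X v * F = X v * G) : F = G := by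
  have := congrArg (rtk2Shift v) h
  rwa [rtk2_shift_X_mul, rtk2_shift_X_mul] at this

/-- An additive operator which is linear over the generators of an ideal preserves the ideal. -/
theorem rtk2_map_mem_span {S : Set (MvPowerSeries σ R)} (T : MvPowerSeries σ R →+ MvPowerSeries σ R)
    (hT : ∀ g ∈ S, ∀ a, T (g * a) = g * T a) {F : MvPowerSeries σ R} (hF : F ∈ Ideal.span S) :
    T F ∈ Ideal.span S := by
  suffices h : ∀ a, T (a * F) ∈ Ideal.span S by simpa using h 1
  induction hF using Submodule.span_induction with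
  | mem x hx =>
    intro a
    rw [mul_comm, hT x hx]
    exact Ideal.mul_mem_right _ _ (Ideal.subset_span hx)
  | zero => intro a; simp
  | add x y _ _ hx hy => intro a; rw [mul_add, map_add]; exact Ideal.add_mem _ (hx a) (hy a)
  | smul b x _ ih =>
    intro a
    rw [smul_eq_mul, ← mul_assoc]
    exact ih (a * b)

/-- Membership in an ideal generated by `v`-free elements passes to the shift. -/
theorem rtk2_shift_mem_span {v : σ} {S : Set (MvPowerSeries σ R)} (hS : ∀ g ∈ S, Rtk2Free {v} g)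
    {F : MvPowerSeries σ R} (hF : F ∈ Ideal.span S) : rtk2Shift v F ∈ Ideal.span S :=
  rtk2_map_mem_span (rtk2Shift v).toAddMonoidHom
    (fun g hg a => rtk2_shift_mul_free (hS g hg) a) hF

/-- Membership in an ideal generated by `v`-free elements passes to `F|_{v = 0}`. -/
theorem rtk2_kill_mem_span {v : σ} {S : Set (MvPowerSeries σ R)} (hS : ∀ g ∈ S, Rtk2Free {v} g)
    {F : MvPowerSeries σ R} (hF : F ∈ Ideal.span S) : rtk2Kill v F ∈ Ideal.span S := by
  unfold rtk2Kill
  exact Ideal.sub_mem _ hF (Ideal.mul_mem_left _ _ (rtk2_shift_mem_span hS hF))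

/-- `X_v` is a nonzerodivisor modulo an ideal generated by `v`-free elements. -/
theorem rtk2_of_X_mul_mem_span {v : σ} {S : Set (MvPowerSeries σ R)}
    (hS : ∀ g ∈ S, Rtk2Free {v} g) {F : MvPowerSeries σ R} (hF : X v * F ∈ Ideal.span S) :
    F ∈ Ideal.span S := by
  have := rtk2_shift_mem_span hS hF
  rwa [rtk2_shift_X_mul] at this

end Shift


/-! ## weights -/

section Weights

variable (w : σ → ℕ)

/-- Weighted homogeneous of weight `d` (explicit binder version of
`MvPowerSeries.IsWeightedHomogeneous`). -/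
def Rtk2WH (F : MvPowerSeries σ R) (d : ℕ) : Prop :=
  ∀ m : σ →₀ ℕ, coeff m F ≠ 0 → weight w m = d

/-- The weighted homogeneous component. -/
noncomputable abbrev rtk2Comp (d : ℕ) : MvPowerSeries σ R →ₗ[R] MvPowerSeries σ R :=
  weightedHomogeneousComponent w d

theorem rtk2_coeff_comp (d : ℕ) (F : MvPowerSeries σ R) (m : σ →₀ ℕ) :
    coeff m (rtk2Comp w d F) = if weight w m = d then coeff m F else 0 := rfl

theorem rtk2_WH_zero (d : ℕ) : Rtk2WH w (0 : MvPowerSeries σ R) d :=
  fun m h => absurd (map_zero (coeff m)) h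

theorem rtk2_WH_C (r : R) : Rtk2WH w (C r : MvPowerSeries σ R) 0 := by
  classical
  intro m h
  rw [coeff_C] at h
  split_ifs at h with h0
  · rw [h0, map_zero]
  · exact absurd rfl h

theorem rtk2_WH_one : Rtk2WH w (1 : MvPowerSeries σ R) 0 := by
  have := rtk2_WH_C (R := R) w 1
  simpa using this

theorem rtk2_WH_X (s : σ) : Rtk2WH w (X s : MvPowerSeries σ R) (w s) := by
  classical
  intro m h
  rw [coeff_X] at h
  split_ifs at h with h0
  · rw [h0, weight_single]; simp
  · exact absurd rfl h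

theorem rtk2_WH_comp (d : ℕ) (F : MvPowerSeries σ R) : Rtk2WH w (rtk2Comp w d F) d := by
  intro m h
  rw [rtk2_coeff_comp] at h
  split_ifs at h with h0
  · exact h0
  · exact absurd rfl h

variable {w}

theorem Rtk2WH.add {F G : MvPowerSeries σ R} {d : ℕ} (hF : Rtk2WH w F d) (hG : Rtk2WH w G d) :
    Rtk2WH w (F + G) d := by
  intro m h
  by_cases h1 : coeff m F = 0
  · by_cases h2 : coeff m G = 0
    · rw [map_add, h1, h2, add_zero] at h
      exact absurd rfl h
    · exact hG m h2
  · exact hF m h1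

theorem Rtk2WH.neg {F : MvPowerSeries σ R} {d : ℕ} (h : Rtk2WH w F d) :
    Rtk2WH w (-F) d := fun m hm => h m (by simpa using hm)

theorem Rtk2WH.sub {F G : MvPowerSeries σ R} {d : ℕ} (hF : Rtk2WH w F d)
    (hG : Rtk2WH w G d) : Rtk2WH w (F - G) d := by
  rw [sub_eq_add_neg]
  exact hF.add hG.neg

theorem Rtk2WH.mul {F G : MvPowerSeries σ R} {d e : ℕ} (hF : Rtk2WH w F d)
    (hG : Rtk2WH w G e) : Rtk2WH w (F * G) (d + e) := by
  classical
  intro m h
  rw [coeff_mul] at h
  obtain ⟨p, hp, hne⟩ := Finset.exists_ne_zero_of_sum_ne_zero h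
  rw [Finset.HasAntidiagonal.mem_antidiagonal] at hp
  rw [← hp, map_add, hF _ (left_ne_zero_of_mul hne), hG _ (right_ne_zero_of_mul hne)]

theorem Rtk2WH.pow {F : MvPowerSeries σ R} {d : ℕ} (h : Rtk2WH w F d) (n : ℕ) :
    Rtk2WH w (F ^ n) (n * d) := by
  induction n with
  | zero => simpa using rtk2_WH_one w
  | succ n ih =>
    rw [pow_succ, Nat.succ_mul]
    exact ih.mul h

theorem rtk2_WH_sum {κ : Type*} (s : Finset κ) (F : κ → MvPowerSeries σ R) (d : ℕ)
    (h : ∀ k ∈ s, Rtk2WH w (F k) d) : Rtk2WH w (∑ k ∈ s, F k) d := by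
  classical
  induction s using Finset.induction_on with
  | empty => simpa using rtk2_WH_zero w d
  | insert a s ha ih =>
    rw [Finset.sum_insert ha]
    exact (h a (Finset.mem_insert_self a s)).add
      (ih fun k hk => h k (Finset.mem_insert_of_mem hk))

theorem Rtk2WH.comp_eq {F : MvPowerSeries σ R} {d : ℕ} (h : Rtk2WH w F d) :
    rtk2Comp w d F = F := by
  ext m
  rw [rtk2_coeff_comp]
  split_ifs with hm
  · rfl
  · by_contra hc
    exact hm (h m (Ne.symm hc))

theorem Rtk2WH.comp_ne {F : MvPowerSeries σ R} {d d' : ℕ} (h : Rtk2WH w F d) (hne : d' ≠ d) :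
    rtk2Comp w d' F = 0 := by
  ext m
  rw [rtk2_coeff_comp, map_zero]
  split_ifs with hm
  · by_contra hc
    exact hne (hm ▸ (h m hc).symm ▸ rfl)
  · rfl

theorem Rtk2WH.eq_zero_of_ne {F : MvPowerSeries σ R} {d d' : ℕ} (h : Rtk2WH w F d)
    (h' : Rtk2WH w F d') (hne : d' ≠ d) : F = 0 := by
  rw [← h.comp_eq, h'.comp_ne (Ne.symm hne)]

theorem rtk2_ext_comp {F G : MvPowerSeries σ R}
    (h : ∀ d, rtk2Comp w d F = rtk2Comp w d G) : F = G := by
  ext m
  have := congrArg (coeff m) (h (weight w m))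
  rwa [rtk2_coeff_comp, rtk2_coeff_comp, if_pos rfl, if_pos rfl] at this

theorem rtk2_comp_mul_WH {G : MvPowerSeries σ R} {e : ℕ} (hG : Rtk2WH w G e)
    (F : MvPowerSeries σ R) (d : ℕ) :
    rtk2Comp w (d + e) (F * G) = rtk2Comp w d F * G := by
  classical
  ext m
  rw [rtk2_coeff_comp, coeff_mul, coeff_mul]
  by_cases hm : weight w m = d + e
  · rw [if_pos hm]
    refine Finset.sum_congr rfl fun p hp => ?_
    rw [Finset.HasAntidiagonal.mem_antidiagonal] at hp
    by_cases hG0 : coeff p.2 G = 0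
    · rw [hG0, mul_zero, mul_zero]
    · rw [rtk2_coeff_comp, if_pos]
      have := hG _ hG0
      rw [← hp, map_add, this] at hm
      omega
  · rw [if_neg hm]
    symm
    refine Finset.sum_eq_zero fun p hp => ?_
    rw [Finset.HasAntidiagonal.mem_antidiagonal] at hp
    by_cases hG0 : coeff p.2 G = 0
    · rw [hG0, mul_zero]
    · rw [rtk2_coeff_comp, if_neg, zero_mul]
      intro h1
      apply hm
      rw [← hp, map_add, h1, hG _ hG0]

theorem rtk2_comp_mul_WH_lt {G : MvPowerSeries σ R} {e : ℕ} (hG : Rtk2WH w G e)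
    (F : MvPowerSeries σ R) {d : ℕ} (hd : d < e) : rtk2Comp w d (F * G) = 0 := by
  classical
  ext m
  rw [rtk2_coeff_comp, coeff_mul, map_zero]
  split_ifs with hm
  · refine Finset.sum_eq_zero fun p hp => ?_
    rw [Finset.HasAntidiagonal.mem_antidiagonal] at hp
    by_cases hG0 : coeff p.2 G = 0
    · rw [hG0, mul_zero]
    · exfalso
      have := hG _ hG0
      rw [← hp, map_add, this] at hm
      omega
  · rfl

/-- Components of `G * F` for `G` weighted homogeneous of weight `e`. -/
theorem rtk2_comp_WH_mul {G : MvPowerSeries σ R} {e : ℕ} (hG : Rtk2WH w G e)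
    (F : MvPowerSeries σ R) (d : ℕ) :
    rtk2Comp w d (G * F) = if e ≤ d then G * rtk2Comp w (d - e) F else 0 := by
  split_ifs with h
  · obtain ⟨k, rfl⟩ := Nat.exists_eq_add_of_le h
    rw [mul_comm G F, add_comm e k, rtk2_comp_mul_WH hG, Nat.add_sub_cancel, mul_comm]
  · rw [mul_comm G F]
    exact rtk2_comp_mul_WH_lt hG F (by omega)

theorem rtk2_comp_mul (F G : MvPowerSeries σ R) (n : ℕ) :
    rtk2Comp w n (F * G) =
      ∑ p ∈ Finset.HasAntidiagonal.antidiagonal n, rtk2Comp w p.1 F * rtk2Comp w p.2 G := by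
  classical
  ext m
  rw [rtk2_coeff_comp, map_sum]
  simp_rw [coeff_mul, rtk2_coeff_comp]
  rw [Finset.sum_comm]
  by_cases hm : weight w m = n
  · rw [if_pos hm]
    refine Finset.sum_congr rfl fun q hq => ?_
    rw [Finset.HasAntidiagonal.mem_antidiagonal] at hq
    rw [Finset.sum_eq_single (weight w q.1, weight w q.2)]
    · simp
    · intro b _ hb
      by_cases h1 : weight w q.1 = b.1
      · by_cases h2 : weight w q.2 = b.2
        · exact absurd (Prod.ext h1.symm h2.symm) hb
        · rw [if_neg h2, mul_zero]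
      · rw [if_neg h1, zero_mul]
    · intro hnot
      exfalso
      apply hnot
      rw [Finset.HasAntidiagonal.mem_antidiagonal, ← map_add, hq, hm]
  · rw [if_neg hm]
    symm
    refine Finset.sum_eq_zero fun q hq => ?_
    rw [Finset.HasAntidiagonal.mem_antidiagonal] at hq
    refine Finset.sum_eq_zero fun b hb => ?_
    rw [Finset.HasAntidiagonal.mem_antidiagonal] at hb
    by_cases h1 : weight w q.1 = b.1
    · by_cases h2 : weight w q.2 = b.2
      · exfalso
        apply hm
        rw [← hq, map_add, h1, h2, hb]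
      · rw [if_neg h2, mul_zero]
    · rw [if_neg h1, zero_mul]

theorem Rtk2WH.shift {F : MvPowerSeries σ R} {d : ℕ} (h : Rtk2WH w F d) (v : σ) :
    Rtk2WH w (rtk2Shift v F) (d - w v) := by
  intro m hm
  rw [rtk2_coeff_shift] at hm
  have := h _ hm
  rw [map_add, weight_single] at this
  simp only [smul_eq_mul, one_mul] at this
  omega

theorem Rtk2WH.shift_eq_zero {F : MvPowerSeries σ R} {d : ℕ} (h : Rtk2WH w F d) {v : σ}
    (hlt : d < w v) : rtk2Shift v F = 0 := by
  ext m
  rw [map_zero]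
  by_contra hm
  rw [rtk2_coeff_shift] at hm
  have := h _ hm
  rw [map_add, weight_single] at this
  simp only [smul_eq_mul, one_mul] at this
  omega

theorem Rtk2WH.kill {F : MvPowerSeries σ R} {d : ℕ} (h : Rtk2WH w F d) (v : σ) :
    Rtk2WH w (rtk2Kill v F) d := by
  intro m hm
  rw [rtk2_coeff_kill] at hm
  split_ifs at hm
  · exact h m hm
  · exact absurd rfl hm

/-- Free of the variables of positive weight ⇒ homogeneous of weight `0`. -/
theorem Rtk2Free.wh_zero {V : Set σ} {F : MvPowerSeries σ R} (hF : Rtk2Free V F)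
    (hw : ∀ s, s ∉ V → w s = 0) : Rtk2WH w F 0 := by
  intro m hm
  rw [weight_apply]
  refine Finset.sum_eq_zero fun s _ => ?_
  by_cases hs : s ∈ V
  · have : m s = 0 := by
      by_contra h
      exact hm (hF m ⟨s, hs, h⟩)
    show m s • w s = 0
    rw [this, zero_smul]
  · show m s • w s = 0
    rw [hw s hs, smul_zero]

/-- Homogeneous of weight `0` ⇒ free of the variables of positive weight. -/
theorem Rtk2WH.free {V : Set σ} {F : MvPowerSeries σ R} (hF : Rtk2WH w F 0)
    (hw : ∀ s ∈ V, w s ≠ 0) : Rtk2Free V F := by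
  intro m ⟨v, hv, hm⟩
  by_contra hc
  have := hF m hc
  rw [weight_apply] at this
  have h2 := (Finset.sum_eq_zero_iff (s := m.support) (f := fun s => m s • w s)).mp this v
    (Finsupp.mem_support_iff.mpr hm)
  simp only [smul_eq_mul, mul_eq_zero] at h2
  rcases h2 with h2 | h2
  · exact hm h2
  · exact hw v hv h2

end Weights


/-! ## ideals generated by finitely many weighted homogeneous elements -/

section Span

variable {w : σ → ℕ} {κ : Type*} [Fintype κ] (γ : κ → MvPowerSeries σ R) (e : κ → ℕ)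

include e in
/-- The components of an element of a homogeneously generated ideal lie in the ideal. -/
theorem rtk2_comp_mem_span (hγ : ∀ k, Rtk2WH w (γ k) (e k)) {F : MvPowerSeries σ R}
    (hF : F ∈ Ideal.span (Set.range γ)) (d : ℕ) :
    rtk2Comp w d F ∈ Ideal.span (Set.range γ) := by
  obtain ⟨c, rfl⟩ := (Ideal.mem_span_range_iff_exists_fun).mp hF
  rw [map_sum]
  refine Ideal.sum_mem _ fun k _ => ?_
  rw [mul_comm, rtk2_comp_WH_mul (hγ k)]
  split_ifs
  · exact Ideal.mul_mem_right _ _ (Ideal.subset_span ⟨k, rfl⟩)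
  · exact Ideal.zero_mem _

/-- A homogeneous element of a homogeneously generated ideal is a combination of the generators
with homogeneous coefficients. -/
theorem rtk2_exists_WH_coeff (hγ : ∀ k, Rtk2WH w (γ k) (e k)) {F : MvPowerSeries σ R} {d : ℕ}
    (hFd : Rtk2WH w F d) (hF : F ∈ Ideal.span (Set.range γ)) :
    ∃ c : κ → MvPowerSeries σ R, (∀ k, Rtk2WH w (c k) (d - e k)) ∧ (∀ k, d < e k → c k = 0) ∧
      F = ∑ k, c k * γ k := by
  obtain ⟨c, hc⟩ := (Ideal.mem_span_range_iff_exists_fun).mp hF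
  refine ⟨fun k => if e k ≤ d then rtk2Comp w (d - e k) (c k) else 0, ?_, ?_, ?_⟩
  · intro k
    dsimp only
    split_ifs
    · exact rtk2_WH_comp w _ _
    · exact rtk2_WH_zero w _
  · intro k hk
    dsimp only
    rw [if_neg (by omega)]
  · rw [← hFd.comp_eq, ← hc, map_sum]
    refine Finset.sum_congr rfl fun k _ => ?_
    rw [mul_comm, rtk2_comp_WH_mul (hγ k)]
    dsimp only
    split_ifs
    · rw [mul_comm]
    · rw [zero_mul]

/-- **Closedness**: a homogeneously generated ideal contains every power series all of whose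
weighted homogeneous components it contains. -/
theorem rtk2_mem_span_of_comp (hγ : ∀ k, Rtk2WH w (γ k) (e k)) {F : MvPowerSeries σ R}
    (h : ∀ d, rtk2Comp w d F ∈ Ideal.span (Set.range γ)) : F ∈ Ideal.span (Set.range γ) := by
  choose c hc1 hc2 hc3 using fun d =>
    rtk2_exists_WH_coeff γ e hγ (rtk2_WH_comp w d F) (h d)
  let Ck : κ → MvPowerSeries σ R := fun k m => coeff m (c (weight w m + e k) k)
  have hCk : ∀ k n, rtk2Comp w n (Ck k) = c (n + e k) k := by
    intro k n
    ext m
    rw [rtk2_coeff_comp]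
    split_ifs with hm
    · show coeff m (c (weight w m + e k) k) = _
      rw [hm]
    · by_contra hne
      have := hc1 (n + e k) k m (Ne.symm hne)
      rw [Nat.add_sub_cancel] at this
      exact hm this
  have key : F = ∑ k, Ck k * γ k := by
    refine rtk2_ext_comp (w := w) fun d => ?_
    rw [hc3 d, map_sum]
    refine Finset.sum_congr rfl fun k _ => ?_
    rw [mul_comm (Ck k), rtk2_comp_WH_mul (hγ k)]
    split_ifs with hle
    · rw [hCk, Nat.sub_add_cancel hle, mul_comm]
    · rw [hc2 d k (by omega), zero_mul]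
  rw [key]
  exact Ideal.sum_mem _ fun k _ => Ideal.mul_mem_left _ _ (Ideal.subset_span ⟨k, rfl⟩)

end Span

/-! ## the graded primality criterion -/

section Prime

variable {w : σ → ℕ}

/-- An ideal which is stable under the weighted homogeneous components, closed, proper, and prime
on homogeneous elements is prime. -/
theorem rtk2_isPrime_of_homogeneous (𝔮 : Ideal (MvPowerSeries σ R)) (hne : 𝔮 ≠ ⊤)
    (hcomp : ∀ F ∈ 𝔮, ∀ d, rtk2Comp w d F ∈ 𝔮)
    (hcl : ∀ F, (∀ d, rtk2Comp w d F ∈ 𝔮) → F ∈ 𝔮)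
    (hhom : ∀ u v d e, Rtk2WH w u d → Rtk2WH w v e → u * v ∈ 𝔮 → u ∈ 𝔮 ∨ v ∈ 𝔮) :
    𝔮.IsPrime := by
  classical
  refine (Ideal.isPrime_iff).mpr ⟨hne, ?_⟩
  intro x y hxy
  by_contra hcon
  push Not at hcon
  obtain ⟨hx, hy⟩ := hcon
  have hx' : ∃ d, rtk2Comp w d x ∉ 𝔮 := by
    by_contra h
    push Not at h
    exact hx (hcl x h)
  have hy' : ∃ d, rtk2Comp w d y ∉ 𝔮 := by
    by_contra h
    push Not at h
    exact hy (hcl y h)
  set d₀ := Nat.find hx' with hd₀
  set e₀ := Nat.find hy' with he₀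
  have hd₀' : rtk2Comp w d₀ x ∉ 𝔮 := Nat.find_spec hx'
  have he₀' : rtk2Comp w e₀ y ∉ 𝔮 := Nat.find_spec hy'
  have hdmin : ∀ d, d < d₀ → rtk2Comp w d x ∈ 𝔮 := fun d hd => by
    by_contra h
    exact Nat.find_min hx' hd h
  have hemin : ∀ d, d < e₀ → rtk2Comp w d y ∈ 𝔮 := fun d hd => by
    by_contra h
    exact Nat.find_min hy' hd h
  have h1 := hcomp _ hxy (d₀ + e₀)
  rw [rtk2_comp_mul] at h1
  have hmem : (d₀, e₀) ∈ Finset.HasAntidiagonal.antidiagonal (d₀ + e₀) := by
    rw [Finset.HasAntidiagonal.mem_antidiagonal]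
  rw [← Finset.add_sum_erase _ _ hmem] at h1
  have h2 : ∑ p ∈ (Finset.HasAntidiagonal.antidiagonal (d₀ + e₀)).erase (d₀, e₀),
      rtk2Comp w p.1 x * rtk2Comp w p.2 y ∈ 𝔮 := by
    refine Ideal.sum_mem _ fun p hp => ?_
    rw [Finset.mem_erase, Finset.HasAntidiagonal.mem_antidiagonal] at hp
    obtain ⟨hp1, hp2⟩ := hp
    by_cases h : p.1 < d₀
    · exact Ideal.mul_mem_right _ _ (hdmin _ h)
    · have : p.2 < e₀ := by
        by_contra h'
        apply hp1
        ext <;> simp only <;> omega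
      exact Ideal.mul_mem_left _ _ (hemin _ this)
  have h3 : rtk2Comp w d₀ x * rtk2Comp w e₀ y ∈ 𝔮 := by
    have := Ideal.sub_mem _ h1 h2
    simpa using this
  rcases hhom _ _ d₀ e₀ (rtk2_WH_comp w _ _) (rtk2_WH_comp w _ _) h3 with h | h
  · exact hd₀' h
  · exact he₀' h

end Prime

end Fermat.Agent.RT.K2
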